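import Mathlib

/-!
# Image of an invertible ideal under a surjection (helper611, S25/HILB/H3)

`invertible_map_of_inf_le`: if `S → T` is surjective with kernel `N`, `J` is an ideal of `S` which
is an invertible `S`-module and `J ⊓ N ≤ N * J`, then `J.map (algebraMap S T)` is an invertible
`T`-module (it is `T ⊗[S] J`).
-/

namespace Fermat.Agent.S25.H611

open scoped TensorProduct

section InvMap

variable {S T : Type*} [CommRing S] [CommRing T] [Algebra S T]

/-- The natural map `T ⊗[S] J → T`. -/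
noncomputable def baseChangeToIdeal (J : Ideal S) : T ⊗[S] J →ₗ[T] T :=
  LinearMap.liftBaseChange T ((Algebra.linearMap S T) ∘ₗ J.subtype)

@[simp]
theorem baseChangeToIdeal_tmul (J : Ideal S) (t : T) (j : J) :
    baseChangeToIdeal (T := T) J (t ⊗ₜ j) = t * algebraMap S T j := by
  simp [baseChangeToIdeal, LinearMap.liftBaseChange_tmul]

theorem exists_one_tmul_eq (hsurj : Function.Surjective (algebraMap S T)) (J : Ideal S)
    (x : T ⊗[S] J) : ∃ j : J, x = (1 : T) ⊗ₜ[S] j := by
  induction x using TensorProduct.induction_on with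
  | zero => exact ⟨0, by simp⟩
  | tmul t j =>
    obtain ⟨s, rfl⟩ := hsurj t
    refine ⟨s • j, ?_⟩
    rw [TensorProduct.tmul_smul, TensorProduct.smul_tmul', Algebra.smul_def, mul_one]
  | add x y hx hy =>
    obtain ⟨a, rfl⟩ := hx
    obtain ⟨b, rfl⟩ := hy
    exact ⟨a + b, by rw [TensorProduct.tmul_add]⟩

theorem one_tmul_eq_zero_of_mem_mul (J : Ideal S) (j : S)
    (hj : j ∈ RingHom.ker (algebraMap S T) * J) :
    ∃ hj' : j ∈ J, ((1 : T) ⊗ₜ[S] (⟨j, hj'⟩ : J)) = 0 := by
  induction hj using Submodule.mul_induction_on' with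
  | mem_mul_mem m hm n hn =>
    refine ⟨J.mul_mem_left m hn, ?_⟩
    have h1 : (⟨m * n, J.mul_mem_left m hn⟩ : J) = m • (⟨n, hn⟩ : J) := rfl
    rw [h1, TensorProduct.tmul_smul, TensorProduct.smul_tmul', Algebra.smul_def, mul_one,
      (RingHom.mem_ker).mp hm, TensorProduct.zero_tmul]
  | add x hx y hy hx' hy' =>
    obtain ⟨hxJ, hx0⟩ := hx'
    obtain ⟨hyJ, hy0⟩ := hy'
    refine ⟨J.add_mem hxJ hyJ, ?_⟩
    have h1 : (⟨x + y, J.add_mem hxJ hyJ⟩ : J) = ⟨x, hxJ⟩ + ⟨y, hyJ⟩ := rfl
    rw [h1, TensorProduct.tmul_add, hx0, hy0, add_zero]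

theorem baseChangeToIdeal_injective (hsurj : Function.Surjective (algebraMap S T)) (J : Ideal S)
    (h : J ⊓ RingHom.ker (algebraMap S T) ≤ RingHom.ker (algebraMap S T) * J) :
    Function.Injective (baseChangeToIdeal (T := T) J) := by
  rw [injective_iff_map_eq_zero]
  intro x hx
  obtain ⟨j, rfl⟩ := exists_one_tmul_eq hsurj J x
  rw [baseChangeToIdeal_tmul, one_mul] at hx
  have hmem : (j : S) ∈ J ⊓ RingHom.ker (algebraMap S T) := ⟨j.2, RingHom.mem_ker.mpr hx⟩
  obtain ⟨hj', h0⟩ := one_tmul_eq_zero_of_mem_mul (T := T) J (j : S) (h hmem)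
  exact h0

theorem range_baseChangeToIdeal (J : Ideal S) :
    LinearMap.range (baseChangeToIdeal (T := T) J) = J.map (algebraMap S T) := by
  apply le_antisymm
  · rintro _ ⟨x, rfl⟩
    induction x using TensorProduct.induction_on with
    | zero => simp
    | tmul t j =>
      rw [baseChangeToIdeal_tmul]
      exact Ideal.mul_mem_left _ _ (Ideal.mem_map_of_mem _ j.2)
    | add x y hx hy =>
      rw [map_add]
      exact Submodule.add_mem _ hx hy
  · rw [Ideal.map, Ideal.span_le]
    rintro _ ⟨j, hj, rfl⟩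
    exact ⟨(1 : T) ⊗ₜ[S] (⟨j, hj⟩ : J), by simp⟩

/-- **L1.** The image of an invertible ideal under a surjection whose kernel `N` satisfies
`J ⊓ N ≤ N * J` is an invertible module. -/
theorem invertible_map_of_inf_le (hsurj : Function.Surjective (algebraMap S T)) (J : Ideal S)
    [Module.Invertible S J]
    (h : J ⊓ RingHom.ker (algebraMap S T) ≤ RingHom.ker (algebraMap S T) * J) :
    Module.Invertible T (J.map (algebraMap S T)) := by
  let e₁ : (T ⊗[S] J) ≃ₗ[T] LinearMap.range (baseChangeToIdeal (T := T) J) :=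
    LinearEquiv.ofInjective _ (baseChangeToIdeal_injective hsurj J h)
  let e₂ : LinearMap.range (baseChangeToIdeal (T := T) J) ≃ₗ[T] (J.map (algebraMap S T)) :=
    LinearEquiv.ofEq _ _ (range_baseChangeToIdeal J)
  exact Module.Invertible.congr (e₁ ≪≫ₗ e₂)

end InvMap

end Fermat.Agent.S25.H611
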