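import Mathlib
import Fermat.Agent.S25.H611.InvMap

/-!
# Base change of the diagonal ideal (helper611, S25/HILB/H3)

If the diagonal ideal of `B` over `k` is an invertible `B ⊗[k] B`-module and `A` is a flat
`k`-algebra, then the diagonal ideal of `A ⊗[k] B` over `A` is invertible.
-/

namespace Fermat.Agent.S25.H611

open scoped TensorProduct

section BaseChange

variable (k A B : Type*) [CommRing k] [CommRing A] [CommRing B] [Algebra k A] [Algebra k B]

/-- `φ : B ⊗[k] B → (A ⊗[k] B) ⊗[A] (A ⊗[k] B)`, `b ⊗ b' ↦ (1 ⊗ b) ⊗ (1 ⊗ b')`. -/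
noncomputable def diagPhi : (B ⊗[k] B) →ₐ[k] ((A ⊗[k] B) ⊗[A] (A ⊗[k] B)) :=
  Algebra.TensorProduct.lift
    (((Algebra.TensorProduct.includeLeft :
        (A ⊗[k] B) →ₐ[A] (A ⊗[k] B) ⊗[A] (A ⊗[k] B)).restrictScalars k).comp
      (Algebra.TensorProduct.includeRight : B →ₐ[k] A ⊗[k] B))
    (((Algebra.TensorProduct.includeRight :
        (A ⊗[k] B) →ₐ[A] (A ⊗[k] B) ⊗[A] (A ⊗[k] B)).restrictScalars k).comp
      (Algebra.TensorProduct.includeRight : B →ₐ[k] A ⊗[k] B))
    (fun _ _ => Commute.all _ _)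

@[simp]
theorem diagPhi_tmul (b b' : B) :
    diagPhi k A B (b ⊗ₜ[k] b') =
      ((1 : A) ⊗ₜ[k] b) ⊗ₜ[A] ((1 : A) ⊗ₜ[k] b') := by
  simp [diagPhi]

/-- `a • φ s` as a linear equivalence `A ⊗[k] (B ⊗[k] B) ≃ (A ⊗[k] B) ⊗[A] (A ⊗[k] B)`. -/
theorem distrib_one_tmul (s : B ⊗[k] B) :
    TensorProduct.AlgebraTensorModule.distribBaseChange k A B B ((1 : A) ⊗ₜ[k] s) =
      diagPhi k A B s := by
  induction s using TensorProduct.induction_on with
  | zero => simp
  | tmul b b' => simp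
  | add x y hx hy => rw [TensorProduct.tmul_add, map_add, hx, hy, map_add]

theorem distrib_tmul (a : A) (s : B ⊗[k] B) :
    TensorProduct.AlgebraTensorModule.distribBaseChange k A B B (a ⊗ₜ[k] s) =
      a • diagPhi k A B s := by
  rw [← distrib_one_tmul, ← map_smul, TensorProduct.smul_tmul', smul_eq_mul, mul_one]

theorem lmul'_diagPhi (s : B ⊗[k] B) :
    Algebra.TensorProduct.lmul' A (diagPhi k A B s) =
      (1 : A) ⊗ₜ[k] (Algebra.TensorProduct.lmul' k s) := by
  induction s using TensorProduct.induction_on with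
  | zero => simp
  | tmul b b' => simp
  | add x y hx hy => rw [map_add, map_add, hx, hy, map_add, TensorProduct.tmul_add]

theorem map_diagPhi_le :
    (KaehlerDifferential.ideal k B).map (diagPhi k A B) ≤
      KaehlerDifferential.ideal A (A ⊗[k] B) := by
  rw [Ideal.map_le_iff_le_comap]
  intro s hs
  rw [Ideal.mem_comap, RingHom.mem_ker, lmul'_diagPhi, RingHom.mem_ker.mp hs,
    TensorProduct.tmul_zero]

theorem ideal_le_map_diagPhi :
    KaehlerDifferential.ideal A (A ⊗[k] B) ≤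
      (KaehlerDifferential.ideal k B).map (diagPhi k A B) := by
  rw [← KaehlerDifferential.span_range_eq_ideal, Ideal.span_le]
  rintro _ ⟨r, rfl⟩
  induction r using TensorProduct.induction_on with
  | zero => simp
  | tmul a b =>
    have e1 : (1 : A ⊗[k] B) ⊗ₜ[A] (a ⊗ₜ[k] b) =
        algebraMap A ((A ⊗[k] B) ⊗[A] (A ⊗[k] B)) a *
          (((1 : A) ⊗ₜ[k] (1 : B)) ⊗ₜ[A] ((1 : A) ⊗ₜ[k] b)) := by
      rw [Algebra.TensorProduct.algebraMap_apply, Algebra.TensorProduct.tmul_mul_tmul, one_mul,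
        Algebra.TensorProduct.algebraMap_apply, Algebra.TensorProduct.tmul_mul_tmul, mul_one,
        mul_one]
      have : ((algebraMap A A a) ⊗ₜ[k] (1 : B)) = a • (1 : A ⊗[k] B) := by
        rw [Algebra.TensorProduct.one_def, TensorProduct.smul_tmul', smul_eq_mul, mul_one]; rfl
      rw [this, TensorProduct.smul_tmul, TensorProduct.smul_tmul', smul_eq_mul, mul_one]
    have e2 : (a ⊗ₜ[k] b) ⊗ₜ[A] (1 : A ⊗[k] B) =
        algebraMap A ((A ⊗[k] B) ⊗[A] (A ⊗[k] B)) a *
          (((1 : A) ⊗ₜ[k] b) ⊗ₜ[A] ((1 : A) ⊗ₜ[k] (1 : B))) := by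
      rw [Algebra.TensorProduct.algebraMap_apply, Algebra.TensorProduct.tmul_mul_tmul, one_mul,
        Algebra.TensorProduct.algebraMap_apply, Algebra.TensorProduct.tmul_mul_tmul, mul_one,
        one_mul]
      rfl
    have h1 : ((1 : A ⊗[k] B) ⊗ₜ[A] (a ⊗ₜ[k] b) - (a ⊗ₜ[k] b) ⊗ₜ[A] (1 : A ⊗[k] B)) =
        algebraMap A ((A ⊗[k] B) ⊗[A] (A ⊗[k] B)) a *
          diagPhi k A B ((1 : B) ⊗ₜ[k] b - b ⊗ₜ[k] (1 : B)) := by
      rw [e1, e2, ← mul_sub, map_sub, diagPhi_tmul, diagPhi_tmul]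
    change ((1 : A ⊗[k] B) ⊗ₜ[A] (a ⊗ₜ[k] b) - (a ⊗ₜ[k] b) ⊗ₜ[A] (1 : A ⊗[k] B)) ∈
      (KaehlerDifferential.ideal k B).map (diagPhi k A B)
    rw [h1]
    exact Ideal.mul_mem_left _ _ (Ideal.mem_map_of_mem _
      (KaehlerDifferential.one_smul_sub_smul_one_mem_ideal k b))
  | add x y hx hy =>
    have h1 : ((1 : A ⊗[k] B) ⊗ₜ[A] (x + y) - (x + y) ⊗ₜ[A] (1 : A ⊗[k] B)) =
        ((1 : A ⊗[k] B) ⊗ₜ[A] x - x ⊗ₜ[A] (1 : A ⊗[k] B)) +
        ((1 : A ⊗[k] B) ⊗ₜ[A] y - y ⊗ₜ[A] (1 : A ⊗[k] B)) := by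
      rw [TensorProduct.tmul_add, TensorProduct.add_tmul]; abel
    change ((1 : A ⊗[k] B) ⊗ₜ[A] (x + y) - (x + y) ⊗ₜ[A] (1 : A ⊗[k] B)) ∈
      (KaehlerDifferential.ideal k B).map (diagPhi k A B)
    rw [h1]
    exact Ideal.add_mem _ hx hy

theorem ideal_eq_map_diagPhi :
    KaehlerDifferential.ideal A (A ⊗[k] B) =
      (KaehlerDifferential.ideal k B).map (diagPhi k A B) :=
  le_antisymm (ideal_le_map_diagPhi k A B) (map_diagPhi_le k A B)

section Inj

/-- The `B ⊗[k] B`-algebra structure on `(A ⊗[k] B) ⊗[A] (A ⊗[k] B)` given by `diagPhi`. -/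
@[reducible] noncomputable def diagAlgebra :
    Algebra (B ⊗[k] B) ((A ⊗[k] B) ⊗[A] (A ⊗[k] B)) :=
  (diagPhi k A B).toRingHom.toAlgebra

attribute [local instance] diagAlgebra

theorem diagAlgebra_algebraMap_apply (s : B ⊗[k] B) :
    algebraMap (B ⊗[k] B) ((A ⊗[k] B) ⊗[A] (A ⊗[k] B)) s = diagPhi k A B s := rfl

theorem smul_diagPhi_eq (a : A) (s : B ⊗[k] B) :
    a • diagPhi k A B s =
      algebraMap A ((A ⊗[k] B) ⊗[A] (A ⊗[k] B)) a * diagPhi k A B s :=
  Algebra.smul_def a (diagPhi k A B s)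

/-- The additive map `A ⊗[k] J₀ → S ⊗[S₀] J₀`, `a ⊗ j ↦ a ⊗ j`. -/
noncomputable def diagTheta :
    (A ⊗[k] (KaehlerDifferential.ideal k B)) →+
      ((A ⊗[k] B) ⊗[A] (A ⊗[k] B)) ⊗[B ⊗[k] B] (KaehlerDifferential.ideal k B) :=
  TensorProduct.liftAddHom
    { toFun := fun a =>
        { toFun := fun j => (algebraMap A ((A ⊗[k] B) ⊗[A] (A ⊗[k] B)) a) ⊗ₜ[B ⊗[k] B] j
          map_zero' := by simp
          map_add' := fun x y => by rw [TensorProduct.tmul_add] }
      map_zero' := by ext j; simp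
      map_add' := fun x y => by ext j; simp [TensorProduct.add_tmul] }
    (fun c a j => by
      change (algebraMap A ((A ⊗[k] B) ⊗[A] (A ⊗[k] B)) (c • a)) ⊗ₜ[B ⊗[k] B] j =
        (algebraMap A ((A ⊗[k] B) ⊗[A] (A ⊗[k] B)) a) ⊗ₜ[B ⊗[k] B] (c • j)
      have h1 : c • j = (algebraMap k (B ⊗[k] B) c) • j := by
        rw [algebraMap_smul]
      rw [h1, TensorProduct.tmul_smul, TensorProduct.smul_tmul', Algebra.smul_def (R := B ⊗[k] B)]
      congr 1
      change _ = (diagPhi k A B) (algebraMap k (B ⊗[k] B) c) * _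
      rw [AlgHom.commutes, Algebra.smul_def, map_mul, ← IsScalarTower.algebraMap_apply])

theorem diagTheta_tmul (a : A) (j : KaehlerDifferential.ideal k B) :
    diagTheta k A B (a ⊗ₜ[k] j) =
      (algebraMap A ((A ⊗[k] B) ⊗[A] (A ⊗[k] B)) a) ⊗ₜ[B ⊗[k] B] j := rfl

theorem baseChangeToIdeal_diagTheta (x : A ⊗[k] (KaehlerDifferential.ideal k B)) :
    baseChangeToIdeal (T := (A ⊗[k] B) ⊗[A] (A ⊗[k] B)) (KaehlerDifferential.ideal k B)
        (diagTheta k A B x) =
      TensorProduct.AlgebraTensorModule.distribBaseChange k A B B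
        (LinearMap.lTensor A ((KaehlerDifferential.ideal k B).subtype.restrictScalars k) x) := by
  induction x using TensorProduct.induction_on with
  | zero => rw [(diagTheta k A B).map_zero, map_zero, map_zero, map_zero]
  | tmul a j =>
    rw [diagTheta_tmul, baseChangeToIdeal_tmul, LinearMap.lTensor_tmul]
    change _ = TensorProduct.AlgebraTensorModule.distribBaseChange k A B B (a ⊗ₜ[k] (j : B ⊗[k] B))
    rw [distrib_tmul, smul_diagPhi_eq]
    rfl
  | add x y hx hy =>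
    rw [(diagTheta k A B).map_add, map_add, hx, hy, map_add, map_add]

theorem diagTheta_surjective :
    Function.Surjective (diagTheta k A B) := by
  intro y
  induction y using TensorProduct.induction_on with
  | zero => exact ⟨0, (diagTheta k A B).map_zero⟩
  | tmul s j =>
    obtain ⟨z, rfl⟩ := (TensorProduct.AlgebraTensorModule.distribBaseChange k A B B).surjective s
    induction z using TensorProduct.induction_on with
    | zero =>
      refine ⟨0, ?_⟩
      rw [(diagTheta k A B).map_zero, map_zero, TensorProduct.zero_tmul]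
    | tmul a s₀ =>
      refine ⟨a ⊗ₜ[k] (s₀ • j), ?_⟩
      rw [diagTheta_tmul, TensorProduct.tmul_smul, TensorProduct.smul_tmul', distrib_tmul,
        smul_diagPhi_eq, Algebra.smul_def (R := B ⊗[k] B), diagAlgebra_algebraMap_apply, mul_comm]
    | add x y hx hy =>
      obtain ⟨a, ha⟩ := hx
      obtain ⟨b, hb⟩ := hy
      exact ⟨a + b, by rw [(diagTheta k A B).map_add, ha, hb, map_add, TensorProduct.add_tmul]⟩
  | add x y hx hy =>
    obtain ⟨a, ha⟩ := hx
    obtain ⟨b, hb⟩ := hy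
    exact ⟨a + b, by rw [(diagTheta k A B).map_add, ha, hb]⟩

theorem baseChangeToIdeal_diag_injective [Module.Flat k A] :
    Function.Injective
      (baseChangeToIdeal (T := (A ⊗[k] B) ⊗[A] (A ⊗[k] B)) (KaehlerDifferential.ideal k B)) := by
  rw [injective_iff_map_eq_zero]
  intro y hy
  obtain ⟨x, rfl⟩ := diagTheta_surjective k A B y
  rw [baseChangeToIdeal_diagTheta] at hy
  have h1 : LinearMap.lTensor A ((KaehlerDifferential.ideal k B).subtype.restrictScalars k) x =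
      0 := by
    simpa using hy
  have hinj : Function.Injective
      (LinearMap.lTensor A ((KaehlerDifferential.ideal k B).subtype.restrictScalars k)) :=
    Module.Flat.lTensor_preserves_injective_linearMap _ Subtype.val_injective
  have h2 : x = 0 := hinj (by rw [h1, map_zero])
  rw [h2, (diagTheta k A B).map_zero]

/-- **Base change of the diagonal.** -/
theorem invertible_diag_baseChange [Module.Flat k A]
    [Module.Invertible (B ⊗[k] B) (KaehlerDifferential.ideal k B)] :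
    Module.Invertible ((A ⊗[k] B) ⊗[A] (A ⊗[k] B)) (KaehlerDifferential.ideal A (A ⊗[k] B)) := by
  let e₁ : (((A ⊗[k] B) ⊗[A] (A ⊗[k] B)) ⊗[B ⊗[k] B] (KaehlerDifferential.ideal k B))
      ≃ₗ[(A ⊗[k] B) ⊗[A] (A ⊗[k] B)]
      LinearMap.range (baseChangeToIdeal (T := (A ⊗[k] B) ⊗[A] (A ⊗[k] B))
        (KaehlerDifferential.ideal k B)) :=
    LinearEquiv.ofInjective _ (baseChangeToIdeal_diag_injective k A B)
  have hrange : LinearMap.range (baseChangeToIdeal (T := (A ⊗[k] B) ⊗[A] (A ⊗[k] B))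
      (KaehlerDifferential.ideal k B)) = KaehlerDifferential.ideal A (A ⊗[k] B) := by
    rw [range_baseChangeToIdeal, ideal_eq_map_diagPhi k A B]
    rfl
  exact Module.Invertible.congr (e₁ ≪≫ₗ LinearEquiv.ofEq _ _ hrange)

end Inj

end BaseChange

end Fermat.Agent.S25.H611
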