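import Mathlib
import Fermat.Agent.S25.H611.InvMap

/-!
# The universal point of a relative divisor (helper611, S25/HILB/H3)

`A → R` commutative rings, `I` an ideal of `R`, `S = R ⊗[A] R`, `J = ker (S → R)` the diagonal
ideal, `T = R ⊗[A] (R ⧸ I)`, `ν : T → R ⧸ I` the multiplication.  If `J` is an invertible
`S`-module then `ker ν` is an invertible `T`-module.
-/

namespace Fermat.Agent.S25.H611

open scoped TensorProduct

section Diag

variable (A : Type*) {R : Type*} [CommRing A] [CommRing R] [Algebra A R] (I : Ideal R)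

/-- `I₂ = R ⊗ I ⊂ R ⊗[A] R`. -/
noncomputable def rightIdeal : Ideal (R ⊗[A] R) :=
  I.map (Algebra.TensorProduct.includeRight : R →ₐ[A] R ⊗[A] R)

/-- `ψ : R ⊗[A] R → R ⊗[A] (R ⧸ I)`. -/
noncomputable def psi : R ⊗[A] R →ₐ[A] R ⊗[A] (R ⧸ I) :=
  Algebra.TensorProduct.map (AlgHom.id A R) (Ideal.Quotient.mkₐ A I)

/-- `ν : R ⊗[A] (R ⧸ I) → R ⧸ I`, `r ⊗ q ↦ r • q`. -/
noncomputable def nu : R ⊗[A] (R ⧸ I) →ₐ[R] R ⧸ I :=
  Algebra.TensorProduct.lift (Algebra.ofId R (R ⧸ I)) (AlgHom.id A (R ⧸ I))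
    (fun _ _ => Commute.all _ _)

@[simp] theorem psi_tmul (r r' : R) :
    psi A I (r ⊗ₜ[A] r') = r ⊗ₜ[A] (Ideal.Quotient.mk I r') := rfl

@[simp] theorem nu_tmul (r : R) (q : R ⧸ I) :
    nu A I (r ⊗ₜ[A] q) = Ideal.Quotient.mk I r * q := by
  simp [nu, Algebra.ofId_apply]

theorem psi_surjective : Function.Surjective (psi A I) :=
  Algebra.TensorProduct.map_surjective _ _ Function.surjective_id
    (Ideal.Quotient.mkₐ_surjective A I)

theorem ker_psi : RingHom.ker (psi A I) = rightIdeal A I := by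
  have h := Algebra.TensorProduct.lTensor_ker (A := R) (Ideal.Quotient.mkₐ A I)
    (Ideal.Quotient.mkₐ_surjective A I)
  have hk : RingHom.ker (Ideal.Quotient.mkₐ A I) = I := by
    ext x
    simp [RingHom.mem_ker, Ideal.Quotient.eq_zero_iff_mem]
  rw [hk] at h
  exact h

theorem nu_psi (s : R ⊗[A] R) :
    nu A I (psi A I s) = Ideal.Quotient.mk I (Algebra.TensorProduct.lmul' A s) := by
  induction s using TensorProduct.induction_on with
  | zero => simp
  | tmul r r' => simp
  | add x y hx hy => simp only [map_add, hx, hy]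

theorem sub_includeRight_mem_diag (s : R ⊗[A] R) :
    s - (1 : R) ⊗ₜ[A] (Algebra.TensorProduct.lmul' A s) ∈ KaehlerDifferential.ideal A R := by
  rw [RingHom.mem_ker, map_sub]
  simp

theorem rightIdeal_aux (x : R ⊗[A] R) (hx : x ∈ rightIdeal A I) :
    Algebra.TensorProduct.lmul' A x ∈ I ∧
      x - (1 : R) ⊗ₜ[A] (Algebra.TensorProduct.lmul' A x) ∈
        rightIdeal A I * KaehlerDifferential.ideal A R := by
  unfold rightIdeal at hx
  rw [Ideal.map] at hx
  induction hx using Submodule.span_induction with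
  | mem x hx =>
    obtain ⟨i, hi, rfl⟩ := hx
    constructor
    · simpa using hi
    · simp
  | zero => simp
  | add x y _ _ hx hy =>
    constructor
    · rw [map_add]; exact I.add_mem hx.1 hy.1
    · have : x + y - (1 : R) ⊗ₜ[A] (Algebra.TensorProduct.lmul' A (x + y)) =
          (x - (1 : R) ⊗ₜ[A] (Algebra.TensorProduct.lmul' A x)) +
          (y - (1 : R) ⊗ₜ[A] (Algebra.TensorProduct.lmul' A y)) := by
        rw [map_add, TensorProduct.tmul_add]; ring
      rw [this]
      exact Ideal.add_mem _ hx.2 hy.2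
  | smul s x _ hx =>
    constructor
    · rw [smul_eq_mul, map_mul]; exact I.mul_mem_left _ hx.1
    · have key : s • x - (1 : R) ⊗ₜ[A] (Algebra.TensorProduct.lmul' A (s • x)) =
          s * (x - (1 : R) ⊗ₜ[A] (Algebra.TensorProduct.lmul' A x)) +
          ((1 : R) ⊗ₜ[A] (Algebra.TensorProduct.lmul' A x)) *
            (s - (1 : R) ⊗ₜ[A] (Algebra.TensorProduct.lmul' A s)) := by
        have h1 : (1 : R) ⊗ₜ[A] (Algebra.TensorProduct.lmul' A (s • x)) =
            ((1 : R) ⊗ₜ[A] (Algebra.TensorProduct.lmul' A s)) *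
              ((1 : R) ⊗ₜ[A] (Algebra.TensorProduct.lmul' A x)) := by
          rw [smul_eq_mul, map_mul, Algebra.TensorProduct.tmul_mul_tmul, one_mul]
        rw [h1, smul_eq_mul]; ring
      rw [key]
      refine Ideal.add_mem _ (Ideal.mul_mem_left _ _ hx.2) ?_
      exact Ideal.mul_mem_mul (Ideal.mem_map_of_mem _ hx.1) (sub_includeRight_mem_diag A s)

/-- **D3.** `J ⊓ I₂ ≤ I₂ * J`. -/
theorem diag_inf_rightIdeal_le :
    KaehlerDifferential.ideal A R ⊓ rightIdeal A I ≤
      rightIdeal A I * KaehlerDifferential.ideal A R := by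
  rintro x ⟨hxJ, hxI⟩
  have h := (rightIdeal_aux A I x hxI).2
  have h0 : Algebra.TensorProduct.lmul' A x = 0 := RingHom.mem_ker.mp hxJ
  rw [h0, TensorProduct.tmul_zero, sub_zero] at h
  exact h

/-- **D4.** `ker ν` is the image of the diagonal ideal. -/
theorem ker_nu : RingHom.ker (nu A I) = (KaehlerDifferential.ideal A R).map (psi A I) := by
  apply le_antisymm
  · intro x hx
    obtain ⟨s, rfl⟩ := psi_surjective A I x
    rw [RingHom.mem_ker] at hx
    have h1 : Algebra.TensorProduct.lmul' A s ∈ I := by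
      rw [← Ideal.Quotient.eq_zero_iff_mem, ← nu_psi]; exact hx
    have h2 : psi A I s = psi A I (s - (1 : R) ⊗ₜ[A] (Algebra.TensorProduct.lmul' A s)) := by
      rw [map_sub, psi_tmul, Ideal.Quotient.eq_zero_iff_mem.mpr h1, TensorProduct.tmul_zero,
        sub_zero]
    rw [h2]
    exact Ideal.mem_map_of_mem _ (sub_includeRight_mem_diag A s)
  · rw [Ideal.map_le_iff_le_comap]
    intro s hs
    rw [Ideal.mem_comap, RingHom.mem_ker]
    have := nu_psi A I s
    rw [RingHom.mem_ker.mp hs, map_zero] at this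
    exact this

/-- **D5.** If the diagonal ideal of `R` over `A` is an invertible `R ⊗[A] R`-module, then the
kernel of `R ⊗[A] (R ⧸ I) → R ⧸ I` is an invertible `R ⊗[A] (R ⧸ I)`-module. -/
theorem invertible_ker_nu [Module.Invertible (R ⊗[A] R) (KaehlerDifferential.ideal A R)] :
    Module.Invertible (R ⊗[A] (R ⧸ I)) (RingHom.ker (nu A I)) := by
  let _ : Algebra (R ⊗[A] R) (R ⊗[A] (R ⧸ I)) := (psi A I).toRingHom.toAlgebra
  have hsurj : Function.Surjective (algebraMap (R ⊗[A] R) (R ⊗[A] (R ⧸ I))) := psi_surjective A I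
  have hker : RingHom.ker (algebraMap (R ⊗[A] R) (R ⊗[A] (R ⧸ I))) = rightIdeal A I :=
    ker_psi A I
  have h := invertible_map_of_inf_le (T := R ⊗[A] (R ⧸ I)) hsurj (KaehlerDifferential.ideal A R)
    (by rw [hker]; exact diag_inf_rightIdeal_le A I)
  have hmap : (KaehlerDifferential.ideal A R).map (algebraMap (R ⊗[A] R) (R ⊗[A] (R ⧸ I))) =
      RingHom.ker (nu A I) := (ker_nu A I).symm
  rw [hmap] at h
  exact h

end Diag

end Fermat.Agent.S25.H611
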