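import Mathlib

/-!
# Rank over the base of an invertible module over a finite algebra (helper611, S25/HILB/H3)

If `T` is a finite `R`-algebra and `K` is an invertible `T`-module, then `K` and `T` have the same
fibre dimension at every field-valued point of `R`; hence the same `rankAtStalk` over `R`.
-/

namespace Fermat.Agent.S25.H611

open scoped TensorProduct

section RankInv

attribute [local instance] Algebra.TensorProduct.rightAlgebra

theorem finrank_tensor_eq_of_invertible (R T K κ : Type*) [CommRing R] [CommRing T] [Algebra R T]
    [Module.Finite R T] [AddCommGroup K] [Module T K] [Module R K] [IsScalarTower R T K]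
    [Module.Invertible T K] [Field κ] [Algebra R κ] :
    Module.finrank κ (κ ⊗[R] K) = Module.finrank κ (κ ⊗[R] T) := by
  let B := κ ⊗[R] T
  have e₁ : (B ⊗[T] K) ≃ₗ[κ] κ ⊗[R] K := Algebra.IsPushout.cancelBaseChange R κ T B K
  haveI : IsArtinianRing B := IsArtinianRing.of_finite κ B
  haveI : Module.Free B (B ⊗[T] K) := inferInstance
  obtain ⟨e₂⟩ := (Module.Invertible.free_iff_linearEquiv (R := B) (M := B ⊗[T] K)).mp inferInstance
  rw [← e₁.finrank_eq]
  exact (e₂.restrictScalars κ).finrank_eq

end RankInv

end Fermat.Agent.S25.H611
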