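import Mathlib

/-!
# Finite projective of rank one ⇒ invertible (helper611, S25/HILB/H3)

* `rankAtStalk_dual`: the dual of a finite projective module has the same local ranks.
* `contractLeft_surjective_of_rankAtStalk_pos`: the trace ideal of a finite projective module of
  everywhere positive rank is the unit ideal.
* `invertible_of_rankAtStalk_eq_one`: a finite projective module of constant rank one is
  `Module.Invertible`.
-/

namespace Fermat.Agent.S25.H611

open scoped TensorProduct

section RankOne

variable (R M : Type*) [CommRing R] [AddCommGroup M] [Module R M] [Module.Finite R M]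
  [Module.Projective R M]

attribute [local instance] Module.free_of_flat_of_isLocalRing

theorem rankAtStalk_dual (p : PrimeSpectrum R) :
    Module.rankAtStalk (Module.Dual R M) p = Module.rankAtStalk M p := by
  have : Module.FinitePresentation R M := Module.finitePresentation_of_projective R M
  have hbc := Module.FinitePresentation.isBaseChange_map R M R (Localization.AtPrime p.asIdeal)
  have e := hbc.equiv
  have e' : (Localization.AtPrime p.asIdeal ⊗[R] R) ≃ₗ[Localization.AtPrime p.asIdeal]
      Localization.AtPrime p.asIdeal := TensorProduct.AlgebraTensorModule.rid _ _ _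
  have : Module.Free (Localization.AtPrime p.asIdeal) (Localization.AtPrime p.asIdeal ⊗[R] R) :=
    Module.Free.of_equiv e'.symm
  rw [Module.rankAtStalk_eq_finrank_tensorProduct, Module.rankAtStalk_eq_finrank_tensorProduct]
  have h1 : Module.finrank (Localization.AtPrime p.asIdeal)
      (Localization.AtPrime p.asIdeal ⊗[R] Module.Dual R M) =
      Module.finrank (Localization.AtPrime p.asIdeal)
        (Localization.AtPrime p.asIdeal ⊗[R] M →ₗ[Localization.AtPrime p.asIdeal]
          Localization.AtPrime p.asIdeal ⊗[R] R) := e.finrank_eq
  rw [h1, Module.finrank_linearMap, e'.finrank_eq, Module.finrank_self, mul_one]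

theorem contractLeft_surjective_of_rankAtStalk_pos
    (h : ∀ p : PrimeSpectrum R, 0 < Module.rankAtStalk M p) :
    Function.Surjective (contractLeft R M) := by
  set Tr : Ideal R := LinearMap.range (contractLeft R M) with hTr
  have hle : (⊤ : Submodule R M) ≤ Tr • (⊤ : Submodule R M) := by
    intro m _
    obtain ⟨s, hs⟩ := (inferInstance : Module.Projective R M)
    have hm : m = Finsupp.linearCombination R id (s m) := (hs m).symm
    rw [hm, Finsupp.linearCombination_apply]
    refine Submodule.sum_mem _ fun x _ => ?_
    refine Submodule.smul_mem_smul ?_ Submodule.mem_top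
    exact ⟨((Finsupp.lapply x) ∘ₗ s) ⊗ₜ m, by simp [contractLeft_apply]⟩
  obtain ⟨r, hr1, hr0⟩ := Submodule.exists_sub_one_mem_and_smul_eq_zero_of_fg_of_le_smul Tr ⊤
    (Module.Finite.fg_top) hle
  by_contra hns
  have hne : Tr ≠ ⊤ := fun htop => hns (LinearMap.range_eq_top.mp htop)
  obtain ⟨𝔪, hmax, hTm⟩ := Ideal.exists_le_maximal Tr hne
  have hr : r ∉ 𝔪 := fun hrm => hmax.ne_top ((Ideal.eq_top_iff_one _).mpr (by
    have := 𝔪.sub_mem hrm (hTm hr1); simpa using this))
  have hp := h ⟨𝔪, hmax.isPrime⟩
  rw [Module.rankAtStalk_pos_iff_mem_support, Module.mem_support_iff'] at hp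
  obtain ⟨m, hm⟩ := hp
  exact hm r hr (hr0 m trivial)

/-- A finite projective module of constant rank one is invertible. -/
theorem invertible_of_rankAtStalk_eq_one
    (h : ∀ p : PrimeSpectrum R, Module.rankAtStalk M p = 1) : Module.Invertible R M := by
  have hsurj : Function.Surjective (contractLeft R M) :=
    contractLeft_surjective_of_rankAtStalk_pos R M fun p => by rw [h p]; exact one_pos
  have hb : Function.Bijective (contractLeft R M) := by
    refine @Module.bijective_of_surjective_of_rankAtStalk_eq R _ (Module.Dual R M ⊗[R] M) R
      _ _ _ _ _ _ _ _ (contractLeft R M) hsurj ?_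
    intro m hm
    have : Nontrivial R := ⟨0, 1, fun h01 => hm.ne_top ((Ideal.eq_top_iff_one _).mpr
      (h01 ▸ m.zero_mem))⟩
    rw [Module.rankAtStalk_tensorProduct, Pi.mul_apply, rankAtStalk_dual, h,
      Module.rankAtStalk_self, Pi.one_apply, mul_one]
  exact ⟨hb⟩

end RankOne

end Fermat.Agent.S25.H611
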