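import Mathlib

/-!
# Schanuel's lemma (helper611, S25 block HILB, leaf H3 prerequisites)

`schanuel`: for surjections `π : F → Q`, `ν : P → Q` of `R`-modules with `F`, `P` projective,
`ker π × P ≃ₗ[R] ker ν × F`.
-/

namespace Fermat.Agent.S25.H611

section Schanuel

variable {R : Type*} [Ring R] {F P Q : Type*} [AddCommGroup F] [AddCommGroup P] [AddCommGroup Q]
  [Module R F] [Module R P] [Module R Q]

/-- Explicit form of Schanuel's lemma, given lifts `g : P → F` and `h : F → P` of the two
surjections through each other. -/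
def schanuelEquivOfLifts (π : F →ₗ[R] Q) (ν : P →ₗ[R] Q) (g : P →ₗ[R] F) (h : F →ₗ[R] P)
    (hg : ∀ p, π (g p) = ν p) (hh : ∀ a, ν (h a) = π a) :
    (LinearMap.ker π × P) ≃ₗ[R] (LinearMap.ker ν × F) where
  toFun x := (⟨x.2 - h (x.1 + g x.2), by
      have h3 : π (x.1 : F) = 0 := x.1.2
      simp [LinearMap.mem_ker, map_sub, hh, map_add, hg, h3]⟩, x.1 + g x.2)
  invFun y := (⟨y.2 - g (y.1 + h y.2), by
      have h3 : ν (y.1 : P) = 0 := y.1.2
      simp [LinearMap.mem_ker, map_sub, hh, map_add, hg, h3]⟩, y.1 + h y.2)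
  map_add' x y := by
    ext
    · simp only [Prod.fst_add, Prod.snd_add, Submodule.coe_add, map_add]
      abel
    · simp only [Prod.fst_add, Prod.snd_add, Submodule.coe_add, map_add]
      abel
  map_smul' c x := by
    ext
    · simp [smul_sub]
    · simp
  left_inv x := by
    ext
    · simp
    · simp
  right_inv y := by
    ext
    · simp
    · simp

/-- **Schanuel's lemma.** -/
theorem schanuel (π : F →ₗ[R] Q) (ν : P →ₗ[R] Q) (hπ : Function.Surjective π)
    (hν : Function.Surjective ν) [Module.Projective R F] [Module.Projective R P] :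
    Nonempty ((LinearMap.ker π × P) ≃ₗ[R] (LinearMap.ker ν × F)) := by
  obtain ⟨g, hg⟩ := Module.projective_lifting_property π ν hπ
  obtain ⟨h, hh⟩ := Module.projective_lifting_property ν π hν
  exact ⟨schanuelEquivOfLifts π ν g h (fun p => LinearMap.congr_fun hg p)
    (fun a => LinearMap.congr_fun hh a)⟩

end Schanuel

end Fermat.Agent.S25.H611
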