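import Mathlib
import Fermat.Agent.S25.H611.Schanuel
import Fermat.Agent.S25.H611.RankInv
import Fermat.Agent.S25.H611.RankOne
import Fermat.Agent.S25.H611.Diag

/-!
# Hilb = Div (helper611, S25 block HILB, leaf H3)

`invertible_of_quotient_finite_projective`: let `A → R` be commutative rings such that the
diagonal ideal `ker (R ⊗[A] R → R)` is an invertible `R ⊗[A] R`-module ("`R` is a smooth relative
curve over `A`").  If `I` is an ideal of `R` such that `R ⧸ I` is a finite projective `A`-module,
then `I` is an invertible `R`-module.
-/

namespace Fermat.Agent.S25.H611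

open scoped TensorProduct

section Trans

variable (R T K : Type*) [CommRing R] [CommRing T] [Algebra R T]
    [AddCommGroup K] [Module T K] [Module R K] [IsScalarTower R T K]

theorem projective_finsupp_of_projective (ι : Type*) [Module.Projective R T] :
    Module.Projective R (ι →₀ T) := by
  classical
  exact Module.Projective.of_equiv' (finsuppLEquivDirectSum R T ι).symm

theorem projective_trans [Module.Projective R T] [Module.Projective T K] :
    Module.Projective R K := by
  obtain ⟨s, hs⟩ := (inferInstance : Module.Projective T K)
  have := projective_finsupp_of_projective R T K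
  exact Module.Projective.of_split (R := R) (s.restrictScalars R)
    ((Finsupp.linearCombination T (id : K → K)).restrictScalars R)
    (LinearMap.ext fun x => hs x)

/-- An invertible module over a finite projective algebra has the same local ranks over the base
as the algebra. -/
theorem rankAtStalk_eq_of_invertible [Module.Finite R T] [Module.Projective R T]
    [Module.Invertible T K] (p : PrimeSpectrum R) :
    haveI : Module.Finite R K := Module.Finite.trans T K
    haveI : Module.Flat R K := Module.Flat.trans R T K
    Module.rankAtStalk K p = Module.rankAtStalk T p := by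
  haveI : Module.Finite R K := Module.Finite.trans T K
  haveI : Module.Flat R K := Module.Flat.trans R T K
  rw [Module.rankAtStalk_eq, Module.rankAtStalk_eq]
  exact finrank_tensor_eq_of_invertible R T K p.asIdeal.ResidueField

end Trans

section Main

/-- Abstract form: an ideal `I` with `I × T ≃ K × R`, where `T` is a finite projective
`R`-algebra and `K` an invertible `T`-module, is an invertible `R`-module. -/
theorem invertible_of_prod_equiv {R : Type*} [CommRing R] (I : Type*) [AddCommGroup I] [Module R I]
    (T : Type*) [CommRing T] [Algebra R T] [Module.Finite R T] [Module.Projective R T]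
    (K : Type*) [AddCommGroup K] [Module T K] [Module R K] [IsScalarTower R T K]
    [Module.Invertible T K] (E : (I × T) ≃ₗ[R] (K × R)) : Module.Invertible R I := by
  have hKfin : Module.Finite R K := Module.Finite.trans T K
  have hKflat : Module.Flat R K := Module.Flat.trans R T K
  have hKproj : Module.Projective R K := projective_trans R T K
  have hIT : Module.Projective R (I × T) := Module.Projective.of_equiv' E.symm
  have hIproj : Module.Projective R I :=
    Module.Projective.of_split (LinearMap.inl R I T) (LinearMap.fst R I T) (by ext; simp)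
  have hIfin : Module.Finite R I :=
    Module.Finite.of_surjective ((LinearMap.fst R I T) ∘ₗ E.symm.toLinearMap)
      (fun x => ⟨E (x, 0), by simp⟩)
  refine invertible_of_rankAtStalk_eq_one R I fun p => ?_
  have : Nontrivial R := ⟨0, 1, fun h01 => p.isPrime.ne_top ((Ideal.eq_top_iff_one _).mpr
    (h01 ▸ p.asIdeal.zero_mem))⟩
  have h1 := congrFun (Module.rankAtStalk_eq_of_equiv E) p
  have h2 : Module.rankAtStalk (R := R) (I × T) p =
      Module.rankAtStalk (R := R) I p + Module.rankAtStalk (R := R) T p :=
    congrFun (Module.rankAtStalk_prod (R := R) I T) p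
  have h3 : Module.rankAtStalk (R := R) (K × R) p =
      Module.rankAtStalk (R := R) K p + Module.rankAtStalk (R := R) R p :=
    congrFun (Module.rankAtStalk_prod (R := R) K R) p
  have h4 : Module.rankAtStalk (R := R) K p = Module.rankAtStalk (R := R) T p :=
    rankAtStalk_eq_of_invertible R T K p
  have h5 : Module.rankAtStalk (R := R) R p = 1 := by
    rw [Module.rankAtStalk_self, Pi.one_apply]
  omega

variable (A : Type*) {R : Type*} [CommRing A] [CommRing R] [Algebra A R]

/-- The Schanuel isomorphism `I × (R ⊗[A] (R ⧸ I)) ≃ ker ν × R`. -/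
theorem nonempty_prod_equiv (I : Ideal R) [Module.Projective A (R ⧸ I)] :
    Nonempty ((I × (R ⊗[A] (R ⧸ I))) ≃ₗ[R] (RingHom.ker (nu A I) × R)) := by
  let π : R →ₗ[R] R ⧸ I := (Ideal.Quotient.mkₐ R I).toLinearMap
  let ν' : (R ⊗[A] (R ⧸ I)) →ₗ[R] R ⧸ I := (nu A I).toLinearMap
  have hπ : Function.Surjective π := Ideal.Quotient.mk_surjective
  have hν : Function.Surjective ν' := fun q => ⟨(1 : R) ⊗ₜ[A] q, by simp [ν']⟩
  obtain ⟨e⟩ := schanuel π ν' hπ hν
  have hkerπ : LinearMap.ker π = I := by
    ext x
    simp [π, Ideal.Quotient.eq_zero_iff_mem]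
  have hkerν : LinearMap.ker ν' = (RingHom.ker (nu A I)).restrictScalars R := by
    ext x
    simp [ν', RingHom.mem_ker]
  let eI : LinearMap.ker π ≃ₗ[R] I := LinearEquiv.ofEq _ _ hkerπ
  let eK : LinearMap.ker ν' ≃ₗ[R] RingHom.ker (nu A I) :=
    (LinearEquiv.ofEq _ _ hkerν).trans
      ((Submodule.restrictScalarsEquiv R (R ⊗[A] (R ⧸ I)) (R ⊗[A] (R ⧸ I))
        (RingHom.ker (nu A I))).restrictScalars R)
  exact ⟨((eI.symm.prodCongr (LinearEquiv.refl R _)).trans e).trans
      (eK.prodCongr (LinearEquiv.refl R R))⟩

/-- **H3 (Hilb = Div).** If the diagonal ideal of `R` over `A` is invertible and `R ⧸ I` is a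
finite projective `A`-module, then `I` is an invertible `R`-module. -/
theorem invertible_of_quotient_finite_projective
    [Module.Invertible (R ⊗[A] R) (KaehlerDifferential.ideal A R)]
    (I : Ideal R) [Module.Finite A (R ⧸ I)] [Module.Projective A (R ⧸ I)] :
    Module.Invertible R I := by
  have hK : Module.Invertible (R ⊗[A] (R ⧸ I)) (RingHom.ker (nu A I)) := invertible_ker_nu A I
  obtain ⟨E⟩ := nonempty_prod_equiv A I
  exact invertible_of_prod_equiv I (R ⊗[A] (R ⧸ I)) (RingHom.ker (nu A I)) E

end Main

end Fermat.Agent.S25.H611
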