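import Mathlib
import Fermat.Agent.S25.H611.BaseChange
import Fermat.Agent.S25.H611.HilbDiv

/-!
# S25 / HILB / leaf H3 in the exact shape of the squad skeleton (helper611)

`hilb_ideal_invertible` and `hilb_ideal_generator_regular` are stated verbatim as in
`coord/S25-HILB-skeleton.lean` (up to the namespace).  The hypotheses `hdom` and `hinf`
of the skeleton are not needed.
-/

namespace Fermat.Agent.S25.H611

open TensorProduct

universe u

/-- An ideal `I` of `A ⊗[k] B` with finite projective quotient over `A` is invertible, as soon
as the diagonal ideal of `B` over `k` is invertible and `A` is flat over `k`. -/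
theorem invertible_ideal_of_quotient_finite_projective_tensor
    (k A B : Type*) [CommRing k] [CommRing A] [CommRing B] [Algebra k A] [Algebra k B]
    [Module.Flat k A] [Module.Invertible (B ⊗[k] B) (KaehlerDifferential.ideal k B)]
    (I : Ideal (A ⊗[k] B))
    [Module.Finite A ((A ⊗[k] B) ⧸ I)] [Module.Projective A ((A ⊗[k] B) ⧸ I)] :
    Module.Invertible (A ⊗[k] B) I := by
  haveI := invertible_diag_baseChange k A B
  exact invertible_of_quotient_finite_projective A I

/-- A generator of an invertible principal ideal is a nonzerodivisor. -/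
theorem mem_nonZeroDivisors_of_invertible_span {R : Type*} [CommRing R] (f : R)
    [Module.Invertible R (Ideal.span {f})] : f ∈ nonZeroDivisors R := by
  rw [mem_nonZeroDivisors_iff_right]
  intro g hg
  have hfaith : FaithfulSMul R (Ideal.span {f}) := inferInstance
  apply hfaith.eq_of_smul_eq_smul (M := R)
  rintro ⟨x, hx⟩
  obtain ⟨c, rfl⟩ := Ideal.mem_span_singleton'.mp hx
  apply Subtype.ext
  change g * (c * f) = 0 * (c * f)
  rw [zero_mul, mul_left_comm, hg, mul_zero]

/-- **H3.** An ideal of `A ⊗ B` whose quotient is finite projective over `A` is an invertible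
module (`B` = coordinate ring of a smooth geometrically integral affine curve). -/
theorem hilb_ideal_invertible (k : Type u) [Field k] (B : Type u) [CommRing B] [Algebra k B]
    [Module.Invertible (B ⊗[k] B) (KaehlerDifferential.ideal k B)]
    (hdom : ∀ (K : Type u) [Field K] [Algebra k K], IsDomain (K ⊗[k] B))
    (hinf : ¬ Module.Finite k B)
    (A : Type u) [CommRing A] [Algebra k A] (I : Ideal (A ⊗[k] B))
    [Module.Finite A ((A ⊗[k] B) ⧸ I)] [Module.Projective A ((A ⊗[k] B) ⧸ I)] :
    Module.Invertible (A ⊗[k] B) I :=
  invertible_ideal_of_quotient_finite_projective_tensor k A B I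

/-- **H3'.** Same hypotheses: a generator of `I` (when `I` is principal) is a nonzerodivisor. -/
theorem hilb_ideal_generator_regular (k : Type u) [Field k] (B : Type u) [CommRing B]
    [Algebra k B] [Module.Invertible (B ⊗[k] B) (KaehlerDifferential.ideal k B)]
    (hdom : ∀ (K : Type u) [Field K] [Algebra k K], IsDomain (K ⊗[k] B))
    (hinf : ¬ Module.Finite k B)
    (A : Type u) [CommRing A] [Algebra k A] (f : A ⊗[k] B)
    [Module.Finite A ((A ⊗[k] B) ⧸ Ideal.span {f})]
    [Module.Projective A ((A ⊗[k] B) ⧸ Ideal.span {f})] :
    f ∈ nonZeroDivisors (A ⊗[k] B) := by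
  haveI := invertible_ideal_of_quotient_finite_projective_tensor k A B (Ideal.span {f})
  exact mem_nonZeroDivisors_of_invertible_span f

end Fermat.Agent.S25.H611
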