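import Fermat.Agent.S25.H611.ACCore
import Fermat.Agent.S25.H671.ACStage3

/-!
# S25 / ALGCHARTS, leaf ST3 (helper611 + helper671): `Leaf.Stage3` from `Leaf.Stage2`

helper671's assembly `H671.stage3_of_stage2_of_core` with the inputs SH2
(`H446.ptIdeal_invertible`) and CORE (`H611.stage3_core`).
-/

set_option autoImplicit false

universe u

open scoped TensorProduct

namespace Fermat.Agent.S25.H611

open Fermat.Agent.S25 Fermat.Agent.S25.H11

variable {k : Type u} [Field k] [IsAlgClosed k]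
  {B₀ B₁ B₀₁ : Type u} [CommRing B₀] [CommRing B₁] [CommRing B₀₁]
  [Algebra k B₀] [Algebra k B₁] [Algebra k B₀₁] [Algebra B₀ B₀₁] [Algebra B₁ B₀₁]
  [IsScalarTower k B₀ B₀₁] [IsScalarTower k B₁ B₀₁]

/-- **ST3**: the leaf `Stage3` follows from the leaf `Stage2`. -/
theorem stage3_of_stage2 (hst2 : H11.Leaf.Stage2 k B₀ B₁ B₀₁) :
    H11.Leaf.Stage3 k B₀ B₁ B₀₁ :=
  H671.stage3_of_stage2_of_core hst2
    (fun _ _ _ hC _ q A' _ _ => H446.ptIdeal_invertible A' hC q)
    (fun _ _ _ hC i hnum _ _ _ G _ _ h2 => stage3_core hC i hnum G h2)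

end Fermat.Agent.S25.H611
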