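import Mathlib

/-!
# Rank-one calculus in an invertible module (helper611, S25/ALGCHARTS, leaf ST3 core, part A)

For an invertible module `M` over a commutative ring `R`:

* `invertible_dual_smul_comm` : `φ m • m' = φ m' • m` for `φ : Module.Dual R M`;
* `colon_smul_top_eq_span` : for `s : M`, the colon ideal `I' = (R s : M)` satisfies
  `I' • ⊤ = R s`;
* `exists_retract_quotient_colon` : `R ⧸ I'` is a retract of a finite power of `M ⧸ R s`.
-/

namespace Fermat.Agent.S25.H611

open scoped TensorProduct

section RankOneCalc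

variable {R : Type*} [CommRing R] {M : Type*} [AddCommGroup M] [Module R M]

/-- In `Dual M ⊗ M ≅ R` any two elements are proportional. -/
theorem contractLeft_smul_comm [Module.Invertible R M] (a b : Module.Dual R M ⊗[R] M) :
    contractLeft R M a • b = contractLeft R M b • a := by
  apply (Module.Invertible.bijective (R := R) (M := M)).injective
  rw [map_smul, map_smul, smul_eq_mul, smul_eq_mul, mul_comm]

/-- `φ m • ψ m' • z = ψ z • φ m' • m`. -/
theorem invertible_dual_smul_smul [Module.Invertible R M] (φ ψ : Module.Dual R M) (m m' z : M) :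
    φ m • ψ m' • z = ψ z • φ m' • m := by
  have h := contractLeft_smul_comm (R := R) (M := M) (φ ⊗ₜ[R] m) (ψ ⊗ₜ[R] z)
  rw [contractLeft_apply, contractLeft_apply] at h
  have h2 := congrArg (fun t => dualTensorHom R M M t m') h
  simp only [map_smul, LinearMap.smul_apply, dualTensorHom_apply] at h2
  exact h2

/-- There are finitely many `fᵢ, mᵢ` with `∑ fᵢ mᵢ = 1`. -/
theorem exists_dual_sum_eq_one [Module.Invertible R M] :
    ∃ S : Finset (Module.Dual R M × M), ∑ i ∈ S, i.1 i.2 = 1 := by
  classical
  obtain ⟨t, ht⟩ := (Module.Invertible.bijective (R := R) (M := M)).surjective 1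
  obtain ⟨S, hS⟩ := t.exists_finset
  refine ⟨S, ?_⟩
  rw [← ht, hS, map_sum]
  exact Finset.sum_congr rfl fun i _ => (contractLeft_apply i.1 i.2).symm

/-- The "2 × 2 minor" `φ m • m' - φ m' • m` is killed by `ψ w ^ 2`. -/
theorem sq_smul_minor_eq_zero [Module.Invertible R M] (φ ψ : Module.Dual R M) (m m' w : M) :
    (ψ w ^ 2) • (φ m • m' - φ m' • m) = 0 := by
  -- `d a b := φ a • b - φ b • a`; first `ψ b • d a b = 0`
  have h1 : ∀ a b : M, ψ b • (φ a • b - φ b • a) = 0 := by
    intro a b
    have h := invertible_dual_smul_smul φ ψ a b b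
    rw [smul_sub, sub_eq_zero, smul_smul, smul_smul, mul_comm]
    rw [smul_smul, smul_smul] at h
    exact h
  -- polarization in the second variable
  have h2 : ∀ a b c : M, ψ b • (φ a • c - φ c • a) + ψ c • (φ a • b - φ b • a) = 0 := by
    intro a b c
    have hb := h1 a b
    have hc := h1 a c
    have hbc := h1 a (b + c)
    rw [map_add, map_add] at hbc
    linear_combination (norm := module) hbc - hb - hc
  -- antisymmetry: also `ψ a • d a b = 0`
  have h3 : ∀ a b : M, ψ a • (φ a • b - φ b • a) = 0 := by
    intro a b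
    have h := h1 b a
    linear_combination (norm := module) -h
  have hA := h2 m w m'
  have hB := h1 m w
  have hC := h3 m w  -- not needed, kept for symmetry
  -- `ψ w • d m m' = - ψ m' • d m w`, hence `ψ w ^ 2 • d m m' = - ψ m' • (ψ w • d m w) = 0`
  have hD : ψ w • (φ m • m' - φ m' • m) = -(ψ m' • (φ m • w - φ w • m)) := by
    linear_combination (norm := module) hA
  rw [pow_two, mul_smul, hD, smul_neg, smul_comm, hB, smul_zero, neg_zero]

/-- **Rank-one symmetry**: in an invertible module, `φ m • m' = φ m' • m`. -/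
theorem invertible_dual_smul_comm [Module.Invertible R M] (φ : Module.Dual R M) (m m' : M) :
    φ m • m' = φ m' • m := by
  classical
  obtain ⟨S, hS⟩ := exists_dual_sum_eq_one (R := R) (M := M)
  rw [← sub_eq_zero]
  set d := φ m • m' - φ m' • m with hd
  -- the annihilator of `d` contains the squares of the `fᵢ mᵢ`, which span the unit ideal
  have hspan : Ideal.span ((fun i : Module.Dual R M × M => i.1 i.2) '' (S : Set _)) = ⊤ := by
    rw [Ideal.eq_top_iff_one, ← hS]
    exact Ideal.sum_mem _ fun i hi => Ideal.subset_span ⟨i, hi, rfl⟩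
  have hspan2 := Ideal.span_pow_eq_top _ hspan 2
  have hle : Ideal.span ((fun r : R => r ^ 2) ''
      ((fun i : Module.Dual R M × M => i.1 i.2) '' (S : Set _))) ≤
      (Submodule.span R {d}).annihilator := by
    rw [Ideal.span_le]
    rintro _ ⟨_, ⟨i, -, rfl⟩, rfl⟩
    rw [SetLike.mem_coe, Submodule.mem_annihilator_span_singleton]
    exact sq_smul_minor_eq_zero φ i.1 m m' i.2
  rw [hspan2] at hle
  have h1 : (1 : R) ∈ (Submodule.span R {d}).annihilator := hle Submodule.mem_top
  rw [Submodule.mem_annihilator_span_singleton, one_smul] at h1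
  exact h1

/-- The colon ideal `(R s : M) = {r | r • M ⊆ R s}`. -/
def colonIdeal (s : M) : Ideal R where
  carrier := {r | ∀ m : M, r • m ∈ Submodule.span R {s}}
  add_mem' := fun {a b} ha hb m => by
    rw [add_smul]
    exact Submodule.add_mem _ (ha m) (hb m)
  zero_mem' := fun m => by
    rw [zero_smul]
    exact Submodule.zero_mem _
  smul_mem' := fun c {a} ha m => by
    rw [smul_eq_mul, mul_smul]
    exact Submodule.smul_mem _ c (ha m)

theorem mem_colonIdeal {s : M} {r : R} :
    r ∈ colonIdeal (R := R) s ↔ ∀ m : M, r • m ∈ Submodule.span R {s} := Iff.rfl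

/-- Values of functionals at `s` lie in the colon ideal. -/
theorem dual_apply_mem_colonIdeal [Module.Invertible R M] (φ : Module.Dual R M) (s : M) :
    φ s ∈ colonIdeal (R := R) s := by
  intro m
  rw [invertible_dual_smul_comm φ s m]
  exact Submodule.smul_mem _ _ (Submodule.mem_span_singleton_self s)

/-- **Colon identity**: `(R s : M) • M = R s` in an invertible module `M`. -/
theorem colonIdeal_smul_top [Module.Invertible R M] (s : M) :
    colonIdeal (R := R) s • (⊤ : Submodule R M) = Submodule.span R {s} := by
  classical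
  apply le_antisymm
  · rw [Submodule.smul_le]
    intro r hr m _
    exact hr m
  · rw [Submodule.span_singleton_le_iff_mem]
    obtain ⟨S, hS⟩ := exists_dual_sum_eq_one (R := R) (M := M)
    have h1 : s = ∑ i ∈ S, i.1 s • i.2 := by
      calc s = (1 : R) • s := (one_smul R s).symm
        _ = (∑ i ∈ S, i.1 i.2) • s := by rw [hS]
        _ = ∑ i ∈ S, i.1 i.2 • s := Finset.sum_smul
        _ = ∑ i ∈ S, i.1 s • i.2 :=
          Finset.sum_congr rfl fun i _ => invertible_dual_smul_comm i.1 i.2 s
    have h2 : ∑ i ∈ S, i.1 s • i.2 ∈ colonIdeal (R := R) s • (⊤ : Submodule R M) :=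
      Submodule.sum_mem _ fun i _ =>
        Submodule.smul_mem_smul (dual_apply_mem_colonIdeal i.1 s) Submodule.mem_top
    rwa [← h1] at h2

end RankOneCalc

end Fermat.Agent.S25.H611
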