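import Mathlib
import Fermat.Agent.S25.H611.ACRankOne
import Fermat.Agent.S25.H611.HilbDiv

/-!
# From the cokernel of a section to the Hilbert point (helper611, S25/ALGCHARTS, ST3 core, part C)

Let `R` be an `A`-algebra, `M` an invertible `R`-module and `s : M` such that `M ⧸ R s` is a
finite projective `A`-module.  Then `R ⧸ I'`, `I' = (R s : M)` the colon ideal, is a finite
projective `A`-module with the same local ranks as `M ⧸ R s`, and `I' • M = R s`.
-/

namespace Fermat.Agent.S25.H611

open scoped TensorProduct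

section HilbCore

variable (A : Type*) {R : Type*} [CommRing A] [CommRing R] [Algebra A R]
  {M : Type*} [AddCommGroup M] [Module R M] [Module A M] [IsScalarTower A R M]
  [Module.Invertible R M]

/-- `R ⧸ (R s : M)` is a retract of a finite power of `M ⧸ R s`. -/
theorem exists_retract_quotient_colonIdeal (s : M) :
    ∃ (ι : Type) (_ : Fintype ι)
      (σ : (R ⧸ colonIdeal (R := R) s) →ₗ[R] (ι → M ⧸ Submodule.span R {s}))
      (π : (ι → M ⧸ Submodule.span R {s}) →ₗ[R] (R ⧸ colonIdeal (R := R) s)),
      π ∘ₗ σ = LinearMap.id := by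
  classical
  obtain ⟨S, hS⟩ := exists_dual_sum_eq_one (R := R) (M := M)
  let N : Submodule R M := Submodule.span R {s}
  let I' : Ideal R := colonIdeal (R := R) s
  -- the finite index type: `Fin n` via an enumeration of `S`
  let ι := Fin S.card
  let en : ι ≃ S := (S.equivFin).symm
  let f : ι → Module.Dual R M := fun i => (en i).1.1
  let m : ι → M := fun i => (en i).1.2
  have hsum : ∑ i, f i (m i) = 1 := by
    rw [← hS]
    rw [← Finset.sum_coe_sort S (fun i => i.1 i.2)]
    exact Fintype.sum_equiv en _ _ (fun i => rfl)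
  -- `σ`
  let σ₀ : R →ₗ[R] (ι → M ⧸ N) :=
    LinearMap.pi fun i => N.mkQ ∘ₗ LinearMap.toSpanSingleton R M (m i)
  have hσ₀ : I' ≤ LinearMap.ker σ₀ := by
    intro r hr
    rw [LinearMap.mem_ker]
    ext i
    simp only [σ₀, LinearMap.pi_apply, LinearMap.comp_apply, LinearMap.toSpanSingleton_apply,
      Pi.zero_apply, Submodule.mkQ_apply, Submodule.Quotient.mk_eq_zero]
    exact hr (m i)
  let σ : (R ⧸ I') →ₗ[R] (ι → M ⧸ N) := Submodule.liftQ I' σ₀ hσ₀
  -- `π`
  have hπ : ∀ i, N ≤ LinearMap.ker ((Submodule.mkQ I') ∘ₗ (f i)) := by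
    intro i
    rw [Submodule.span_le]
    intro z hz
    rw [Set.mem_singleton_iff.mp hz, SetLike.mem_coe, LinearMap.mem_ker, LinearMap.comp_apply,
      Submodule.mkQ_apply, Submodule.Quotient.mk_eq_zero]
    exact dual_apply_mem_colonIdeal (f i) s
  let π : (ι → M ⧸ N) →ₗ[R] (R ⧸ I') :=
    ∑ i, (Submodule.liftQ N ((Submodule.mkQ I') ∘ₗ (f i)) (hπ i)) ∘ₗ LinearMap.proj i
  refine ⟨ι, inferInstance, σ, π, ?_⟩
  apply LinearMap.ext
  intro t
  obtain ⟨r, rfl⟩ := Submodule.mkQ_surjective I' t
  simp only [LinearMap.comp_apply, LinearMap.id_apply, π, σ, LinearMap.sum_apply,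
    LinearMap.proj_apply, Submodule.mkQ_apply, Submodule.liftQ_apply, σ₀, LinearMap.pi_apply,
    LinearMap.toSpanSingleton_apply]
  have h1 : ∑ i, f i (r • m i) = r := by
    simp only [map_smul, smul_eq_mul]
    rw [← Finset.mul_sum, hsum, mul_one]
  have h2 := map_sum (Submodule.mkQ I') (fun i => f i (r • m i)) Finset.univ
  simp only [Submodule.mkQ_apply] at h2
  rw [← h2, h1]

/-- A finite power of a projective module is projective. -/
theorem projective_pi_of_fintype (ι : Type*) [Fintype ι] (Q : Type*) [AddCommGroup Q]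
    [Module A Q] [Module.Projective A Q] : Module.Projective A (ι → Q) := by
  classical
  exact Module.Projective.of_equiv (DFinsupp.linearEquivFunOnFintype (R := A) (M := fun _ : ι => Q))

/-- If `M ⧸ R s` is finite projective over `A`, so is `R ⧸ (R s : M)`. -/
theorem quotient_colonIdeal_finite_projective (s : M)
    [Module.Finite A (M ⧸ Submodule.span R {s})]
    [Module.Projective A (M ⧸ Submodule.span R {s})] :
    Module.Finite A (R ⧸ colonIdeal (R := R) s) ∧
      Module.Projective A (R ⧸ colonIdeal (R := R) s) := by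
  obtain ⟨ι, _, σ, π, hπσ⟩ := exists_retract_quotient_colonIdeal (R := R) s
  have hsurj : Function.Surjective (π.restrictScalars A) := fun t =>
    ⟨σ t, by
      have := congrArg (fun g => g t) hπσ
      simpa using this⟩
  refine ⟨Module.Finite.of_surjective (π.restrictScalars A) hsurj, ?_⟩
  haveI := projective_pi_of_fintype A ι (M ⧸ Submodule.span R {s})
  refine Module.Projective.of_split (σ.restrictScalars A) (π.restrictScalars A) ?_
  apply LinearMap.ext
  intro t
  have := congrArg (fun g => g t) hπσ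
  simpa using this

/-- `R ⧸ (R s : M)` has the same local ranks over `A` as `M ⧸ R s`. -/
theorem rankAtStalk_quotient_colonIdeal (s : M)
    [Module.Finite A (M ⧸ Submodule.span R {s})]
    [Module.Projective A (M ⧸ Submodule.span R {s})] (p : PrimeSpectrum A) :
    Module.rankAtStalk (R := A) (R ⧸ colonIdeal (R := R) s) p =
      Module.rankAtStalk (R := A) (M ⧸ Submodule.span R {s}) p := by
  obtain ⟨hfin, hproj⟩ := quotient_colonIdeal_finite_projective A (R := R) s
  let T := R ⧸ colonIdeal (R := R) s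
  let e₁ : (T ⊗[R] M) ≃ₗ[R] M ⧸ (colonIdeal (R := R) s • ⊤ : Submodule R M) :=
    TensorProduct.quotTensorEquivQuotSMul M (colonIdeal (R := R) s)
  let e₂ : (M ⧸ (colonIdeal (R := R) s • ⊤ : Submodule R M)) ≃ₗ[R] M ⧸ Submodule.span R {s} :=
    Submodule.quotEquivOfEq _ _ (colonIdeal_smul_top s)
  let e : (T ⊗[R] M) ≃ₗ[A] M ⧸ Submodule.span R {s} := (e₁ ≪≫ₗ e₂).restrictScalars A
  have h1 := rankAtStalk_eq_of_invertible A T (T ⊗[R] M) p
  have h2 := congrFun (Module.rankAtStalk_eq_of_equiv e) p
  rw [← h1, ← h2]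

end HilbCore

end Fermat.Agent.S25.H611
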