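import Fermat.Agent.S25.DefsAlg

/-!
# The long exact sequence of a section (helper611, S25/ALGCHARTS, leaf ST3 core, part B = SH4)

Abstract form.  `G` is a gluing datum over a cospan `R₀ → R₀₁ ← R₁` of `A`-algebras with
`R₀₁ = R₁[1/y]`, `X` is a unit of `R₀₁` (the twist), `(s₀, s₁)` is a section of the twisted datum
(`r₀ s₀ = X • r₁ s₁`) and `M ⊆ N₀` is a submodule containing `s₀` (sections vanishing on a
divisor).  If

* the twisted Čech differential `(a, b) ↦ r₀ a - X • r₁ b` is onto (`H¹ = 0`),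
* every `a : N₀` is congruent modulo `M` to the first component of a twisted section,
* the twisted sections with first component in `M` are the `A`-multiples of `(s₀, s₁)`,
* `s₁` generates `N₁` modulo `y`, and `ρ ↦ ρ • r₀ s₀` is injective on `R₀₁`,

then `M ⧸ R₀ s₀ ≃ₗ[A] R₀₁ ⧸ (R₀ + R₁) = H¹(O)`.
-/

set_option autoImplicit false

universe u

namespace Fermat.Agent.S25.H611

open Fermat.Agent.S25

section Les

variable {A R₀ R₁ R₀₁ : Type u} [CommRing A] [CommRing R₀] [CommRing R₁] [CommRing R₀₁]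
  [Algebra A R₀] [Algebra A R₁] [Algebra A R₀₁] [Algebra R₀ R₀₁] [Algebra R₁ R₀₁]
  [IsScalarTower A R₀ R₀₁] [IsScalarTower A R₁ R₀₁]

variable (A R₀ R₁ R₀₁) in
/-- The Čech differential of the structure sheaf, `(f, h) ↦ f - h`. -/
def unitCech : (R₀ × R₁) →ₗ[A] R₀₁ :=
  ((Algebra.linearMap R₀ R₀₁).restrictScalars A).coprod
    (-((Algebra.linearMap R₁ R₀₁).restrictScalars A))

@[simp]
theorem unitCech_apply (p : R₀ × R₁) :
    unitCech A R₀ R₁ R₀₁ p = algebraMap R₀ R₀₁ p.1 - algebraMap R₁ R₀₁ p.2 := by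
  simp [unitCech, sub_eq_add_neg]

/-- The hypotheses of the long exact sequence. -/
structure LesData (G : GlueDatum A R₀ R₁ R₀₁) (y : R₁) (X : R₀₁) (M : Submodule R₀ G.N₀)
    (s₀ : G.N₀) (s₁ : G.N₁) : Prop where
  away : IsLocalization.Away y R₀₁
  unitX : IsUnit X
  inj₁ : Function.Injective (algebraMap R₁ R₀₁)
  sec : G.r₀ s₀ = X • G.r₁ s₁
  mem : s₀ ∈ M
  p0 : ∀ c : G.N₀₁, ∃ (a : G.N₀) (b : G.N₁), G.r₀ a - X • G.r₁ b = c
  p1 : ∀ a : G.N₀, ∃ (a' : G.N₀) (b' : G.N₁), G.r₀ a' = X • G.r₁ b' ∧ a - a' ∈ M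
  gen : ∀ (a : G.N₀) (b : G.N₁), G.r₀ a = X • G.r₁ b → a ∈ M →
    ∃ α : A, a = α • s₀ ∧ b = α • s₁
  genY : ∀ c : G.N₁, ∃ r : R₁,
    c - r • s₁ ∈ (Ideal.span {y} • ⊤ : Submodule R₁ G.N₁)
  inj : ∀ ρ : R₀₁, ρ • G.r₀ s₀ = 0 → ρ = 0

namespace LesData

variable {G : GlueDatum A R₀ R₁ R₀₁} {y : R₁} {X : R₀₁} {M : Submodule R₀ G.N₀}
  {s₀ : G.N₀} {s₁ : G.N₁}

/-- Nakayama: some `u = 1 + y c₀` maps `N₁` into `R₁ s₁`. -/
theorem exists_u (h : LesData G y X M s₀ s₁) :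
    ∃ c₀ : R₁, ∀ c : G.N₁, (1 + y * c₀) • c ∈ Submodule.span R₁ {s₁} := by
  haveI := G.invertible₁
  let N : Submodule R₁ G.N₁ := Submodule.span R₁ {s₁}
  have hfg : (⊤ : Submodule R₁ (G.N₁ ⧸ N)).FG := Module.Finite.fg_top
  have hle : (⊤ : Submodule R₁ (G.N₁ ⧸ N)) ≤ Ideal.span {y} • ⊤ := by
    rintro q -
    obtain ⟨c, rfl⟩ := Submodule.mkQ_surjective N q
    obtain ⟨r, hr⟩ := h.genY c
    have h0 : N.mkQ (r • s₁) = 0 := by
      rw [Submodule.mkQ_apply, Submodule.Quotient.mk_eq_zero]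
      exact Submodule.smul_mem _ _ (Submodule.mem_span_singleton_self s₁)
    have h1 : N.mkQ c = N.mkQ (c - r • s₁) := by
      rw [map_sub, h0, sub_zero]
    rw [h1]
    have h2 : Submodule.map N.mkQ (Ideal.span {y} • ⊤ : Submodule R₁ G.N₁) ≤
        Ideal.span {y} • ⊤ := by
      rw [Submodule.map_smul'']
      exact Submodule.smul_mono le_rfl le_top
    exact h2 ⟨_, hr, rfl⟩
  obtain ⟨r, hr1, hr2⟩ :=
    Submodule.exists_sub_one_mem_and_smul_eq_zero_of_fg_of_le_smul (Ideal.span {y}) ⊤ hfg hle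
  obtain ⟨a, ha⟩ := Ideal.mem_span_singleton'.mp hr1
  refine ⟨a, fun c => ?_⟩
  have h3 : r = 1 + y * a := by rw [mul_comm, ha]; ring
  rw [← h3]
  have h4 := hr2 (N.mkQ c) Submodule.mem_top
  rw [← map_smul, Submodule.mkQ_apply, Submodule.Quotient.mk_eq_zero] at h4
  exact h4

/-- `r₁ s₁` in terms of `r₀ s₀`. -/
theorem r₁_eq (h : LesData G y X M s₀ s₁) (Xi : R₀₁) (hXi : Xi * X = 1) :
    G.r₁ s₁ = Xi • G.r₀ s₀ := by
  rw [h.sec, smul_smul, hXi, one_smul]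

/-- One step of clearing denominators. -/
theorem mem_of_y_smul_mem (h : LesData G y X M s₀ s₁)
    (c : G.N₀₁) (hc : ∃ (ρ : R₀₁) (b : G.N₁), y • c = ρ • G.r₁ s₁ + G.r₁ b) :
    ∃ (ρ : R₀₁) (b : G.N₁), c = ρ • G.r₁ s₁ + G.r₁ b := by
  haveI := h.away
  obtain ⟨c₀, hc₀⟩ := h.exists_u
  obtain ⟨ρ, n, hρ⟩ := hc
  obtain ⟨hh, hhn⟩ := Submodule.mem_span_singleton.mp (hc₀ n)
  -- `n = hh • s₁ - y • (c₀ • n)`
  have hn : n = hh • s₁ - y • (c₀ • n) := by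
    rw [hhn, add_smul, one_smul, mul_smul]
    abel
  obtain ⟨Yi, hYi⟩ := (IsLocalization.Away.algebraMap_isUnit (S := R₀₁) y).exists_left_inv
  have hy : ∀ z : G.N₀₁, y • z = algebraMap R₁ R₀₁ y • z := fun z =>
    (algebraMap_smul R₀₁ y z).symm
  have h1 : G.r₁ n = algebraMap R₁ R₀₁ hh • G.r₁ s₁ - y • G.r₁ (c₀ • n) := by
    conv_lhs => rw [hn]
    rw [map_sub, map_smul, map_smul, algebraMap_smul]
  have h2 : y • (c + G.r₁ (c₀ • n)) = (ρ + algebraMap R₁ R₀₁ hh) • G.r₁ s₁ := by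
    rw [smul_add, hρ, h1, add_smul]
    abel
  refine ⟨Yi * (ρ + algebraMap R₁ R₀₁ hh), -(c₀ • n), ?_⟩
  have h3 : c + G.r₁ (c₀ • n) = (Yi * (ρ + algebraMap R₁ R₀₁ hh)) • G.r₁ s₁ := by
    rw [mul_smul, ← h2, hy, smul_smul, hYi, one_smul]
  rw [map_neg, ← h3]
  abel

/-- `N₀₁ = R₀₁ · r₁ s₁ + r₁ N₁`. -/
theorem exists_decomp₁ (h : LesData G y X M s₀ s₁) (c : G.N₀₁) :
    ∃ (ρ : R₀₁) (b : G.N₁), c = ρ • G.r₁ s₁ + G.r₁ b := by
  haveI := h.away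
  haveI hloc : IsLocalizedModule (Submonoid.powers y) G.r₁ :=
    (isLocalizedModule_iff_isBaseChange (Submonoid.powers y) R₀₁ G.r₁).2 G.isBaseChange₁
  have key : ∀ (j : ℕ) (c : G.N₀₁),
      (∃ (ρ : R₀₁) (b : G.N₁), y ^ j • c = ρ • G.r₁ s₁ + G.r₁ b) →
      ∃ (ρ : R₀₁) (b : G.N₁), c = ρ • G.r₁ s₁ + G.r₁ b := by
    intro j
    induction j with
    | zero =>
      intro c hc
      simpa using hc
    | succ j ih =>
      intro c hc
      apply ih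
      apply h.mem_of_y_smul_mem
      obtain ⟨ρ, b, hb⟩ := hc
      exact ⟨ρ, b, by rw [smul_smul, ← pow_succ', hb]⟩
  obtain ⟨⟨n, ⟨_, j, rfl⟩⟩, hn⟩ := IsLocalizedModule.surj (Submonoid.powers y) G.r₁ c
  refine key j c ⟨0, n, ?_⟩
  rw [zero_smul, zero_add]
  exact hn

/-- `N₀₁ = R₀₁ · r₀ s₀ + X • r₁ N₁`. -/
theorem exists_decomp (h : LesData G y X M s₀ s₁) (c : G.N₀₁) :
    ∃ (ρ : R₀₁) (b : G.N₁), c = ρ • G.r₀ s₀ + X • G.r₁ b := by
  obtain ⟨Xi, hXi⟩ := h.unitX.exists_left_inv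
  obtain ⟨ρ, b, hb⟩ := h.exists_decomp₁ (Xi • c)
  refine ⟨ρ, b, ?_⟩
  have h1 : c = X • (Xi • c) := by rw [smul_smul, mul_comm, hXi, one_smul]
  rw [h1, hb, smul_add, h.sec, smul_smul, smul_smul, mul_comm]

/-- If `σ • r₀ s₀ ∈ X • r₁ N₁` then `σ` comes from `R₁`. -/
theorem mem_range_of_smul_eq (h : LesData G y X M s₀ s₁) (σ : R₀₁) (b : G.N₁)
    (hσ : σ • G.r₀ s₀ = X • G.r₁ b) : σ ∈ Set.range (algebraMap R₁ R₀₁) := by
  haveI := h.away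
  obtain ⟨Xi, hXi⟩ := h.unitX.exists_left_inv
  obtain ⟨c₀, hc₀⟩ := h.exists_u
  obtain ⟨hh, hhb⟩ := Submodule.mem_span_singleton.mp (hc₀ b)
  -- `σ • r₁ s₁ = r₁ b`
  have h1 : σ • G.r₁ s₁ = G.r₁ b := by
    have e1 : Xi • (σ • G.r₀ s₀) = Xi • (X • G.r₁ b) := congrArg (fun z => Xi • z) hσ
    rw [h.sec, smul_smul, smul_smul, smul_smul, hXi, one_smul] at e1
    have e2 : Xi * σ * X = σ := by rw [mul_right_comm, hXi, one_mul]
    rw [e2] at e1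
    exact e1
  -- `(u σ - hh) • r₀ s₀ = 0`
  have h2 : algebraMap R₁ R₀₁ (1 + y * c₀) • G.r₁ b = algebraMap R₁ R₀₁ hh • G.r₁ s₁ := by
    rw [algebraMap_smul, algebraMap_smul, ← map_smul, ← map_smul, hhb]
  have h3 : (algebraMap R₁ R₀₁ (1 + y * c₀) * σ - algebraMap R₁ R₀₁ hh) • G.r₀ s₀ = 0 := by
    rw [h.sec, smul_smul, mul_comm _ X, ← smul_smul, sub_smul, ← smul_smul, h1, h2, sub_self,
      smul_zero]
  have h4 : algebraMap R₁ R₀₁ (1 + y * c₀) * σ = algebraMap R₁ R₀₁ hh :=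
    sub_eq_zero.mp (h.inj _ h3)
  obtain ⟨j, w, hw⟩ := IsLocalization.Away.surj y σ
  have h5 : (1 + y * c₀) * w = hh * y ^ j := by
    apply h.inj₁
    rw [map_mul, map_mul, ← hw, ← h4, map_pow]
    ring
  have hcop : IsCoprime (y ^ j) (1 + y * c₀) := by
    apply IsCoprime.pow_left
    exact ⟨-c₀, 1, by ring⟩
  have hdvd : y ^ j ∣ w := by
    apply hcop.dvd_of_dvd_mul_left
    rw [h5]
    exact Dvd.intro_left hh rfl
  obtain ⟨w', rfl⟩ := hdvd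
  refine ⟨w', ?_⟩
  have hunit : IsUnit (algebraMap R₁ R₀₁ y ^ j) :=
    (IsLocalization.Away.algebraMap_isUnit (S := R₀₁) y).pow j
  apply hunit.mul_left_injective
  change algebraMap R₁ R₀₁ w' * algebraMap R₁ R₀₁ y ^ j = σ * algebraMap R₁ R₀₁ y ^ j
  rw [hw, map_mul, map_pow, mul_comm]

end LesData

/-- The map `(ρ, b) ↦ ρ • r₀ s₀ + X • r₁ b`. -/
def wMap (G : GlueDatum A R₀ R₁ R₀₁) (X : R₀₁) (s₀ : G.N₀) : (R₀₁ × G.N₁) →ₗ[A] G.N₀₁ :=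
  ((LinearMap.toSpanSingleton R₀₁ G.N₀₁ (G.r₀ s₀)).restrictScalars A).coprod
    ((Algebra.lsmul A A G.N₀₁ X).comp (G.r₁.restrictScalars A))

@[simp]
theorem wMap_apply (G : GlueDatum A R₀ R₁ R₀₁) (X : R₀₁) (s₀ : G.N₀) (p : R₀₁ × G.N₁) :
    wMap G X s₀ p = p.1 • G.r₀ s₀ + X • G.r₁ p.2 := by
  simp [wMap]

namespace LesData

variable {G : GlueDatum A R₀ R₁ R₀₁} {y : R₁} {X : R₀₁} {M : Submodule R₀ G.N₀}
  {s₀ : G.N₀} {s₁ : G.N₁}

theorem wMap_surjective (h : LesData G y X M s₀ s₁) : Function.Surjective (wMap G X s₀) := by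
  intro c
  obtain ⟨ρ, b, hb⟩ := h.exists_decomp c
  exact ⟨(ρ, b), by rw [wMap_apply, hb]⟩

theorem ker_wMap_le (h : LesData G y X M s₀ s₁) :
    LinearMap.ker (wMap G X s₀) ≤
      LinearMap.ker ((LinearMap.range (unitCech A R₀ R₁ R₀₁)).mkQ ∘ₗ
        LinearMap.fst A R₀₁ G.N₁) := by
  intro p hp
  rw [LinearMap.mem_ker, wMap_apply] at hp
  have h1 : p.1 • G.r₀ s₀ = X • G.r₁ (-p.2) := by
    rw [map_neg, smul_neg]
    exact eq_neg_of_add_eq_zero_left hp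
  obtain ⟨w, hw⟩ := h.mem_range_of_smul_eq p.1 (-p.2) h1
  rw [LinearMap.mem_ker, LinearMap.comp_apply, LinearMap.fst_apply, Submodule.mkQ_apply,
    Submodule.Quotient.mk_eq_zero]
  exact ⟨(0, -w), by rw [unitCech_apply, map_zero, map_neg, zero_sub, neg_neg, hw]⟩

/-- The map `N₀₁ → H¹(O)`, `ρ • r₀ s₀ + X • r₁ b ↦ [ρ]`. -/
noncomputable def psi₀ (h : LesData G y X M s₀ s₁) :
    G.N₀₁ →ₗ[A] (R₀₁ ⧸ LinearMap.range (unitCech A R₀ R₁ R₀₁)) :=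
  ((LinearMap.ker (wMap G X s₀)).liftQ _ h.ker_wMap_le) ∘ₗ
    ((wMap G X s₀).quotKerEquivOfSurjective h.wMap_surjective).symm.toLinearMap

theorem psi₀_apply (h : LesData G y X M s₀ s₁) (ρ : R₀₁) (b : G.N₁) :
    h.psi₀ (ρ • G.r₀ s₀ + X • G.r₁ b) =
      (LinearMap.range (unitCech A R₀ R₁ R₀₁)).mkQ ρ := by
  have h1 : ((wMap G X s₀).quotKerEquivOfSurjective h.wMap_surjective).symm
      (ρ • G.r₀ s₀ + X • G.r₁ b) = Submodule.Quotient.mk (ρ, b) := by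
    rw [LinearEquiv.symm_apply_eq, LinearMap.quotKerEquivOfSurjective_apply_mk, wMap_apply]
  rw [psi₀, LinearMap.comp_apply, LinearEquiv.coe_coe, h1, Submodule.liftQ_apply]
  rfl

/-- The map `M → H¹(O)`. -/
noncomputable def psi (h : LesData G y X M s₀ s₁) :
    M →ₗ[A] (R₀₁ ⧸ LinearMap.range (unitCech A R₀ R₁ R₀₁)) :=
  h.psi₀ ∘ₗ (G.r₀.restrictScalars A) ∘ₗ (M.subtype.restrictScalars A)

theorem psi_apply (h : LesData G y X M s₀ s₁) (a : M) : h.psi a = h.psi₀ (G.r₀ a) := rfl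

theorem psi_surjective (h : LesData G y X M s₀ s₁) : Function.Surjective h.psi := by
  intro t
  obtain ⟨ρ, rfl⟩ := Submodule.mkQ_surjective _ t
  obtain ⟨a, b, hab⟩ := h.p0 (ρ • G.r₀ s₀)
  obtain ⟨a', b', hab', hm⟩ := h.p1 a
  refine ⟨⟨a - a', hm⟩, ?_⟩
  rw [psi_apply]
  have h1 : G.r₀ (a - a') = ρ • G.r₀ s₀ + X • G.r₁ (b - b') := by
    rw [map_sub, map_sub, smul_sub, hab', ← hab]
    abel
  change h.psi₀ (G.r₀ (a - a')) = _
  rw [h1, psi₀_apply]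

theorem psi_eq_zero_iff (h : LesData G y X M s₀ s₁) (a : M) :
    h.psi a = 0 ↔ a ∈ Submodule.span R₀ {(⟨s₀, h.mem⟩ : M)} := by
  constructor
  · intro ha
    obtain ⟨ρ, b, hb⟩ := h.exists_decomp (G.r₀ a)
    rw [psi_apply, hb, psi₀_apply, Submodule.mkQ_apply, Submodule.Quotient.mk_eq_zero] at ha
    obtain ⟨⟨f, hh⟩, hfh⟩ := ha
    rw [unitCech_apply] at hfh
    -- `r₀ (a - f s₀) = X • r₁ (b - hh s₁)`
    have h1 : G.r₀ ((a : G.N₀) - f • s₀) = X • G.r₁ (b - hh • s₁) := by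
      rw [map_sub, map_sub, hb, ← hfh, sub_smul, map_smul, map_smul, algebraMap_smul,
        algebraMap_smul, smul_sub]
      have h2 : hh • G.r₀ s₀ = X • hh • G.r₁ s₁ := by
        rw [h.sec, ← algebraMap_smul R₀₁ hh (X • G.r₁ s₁), ← algebraMap_smul R₀₁ hh (G.r₁ s₁),
          smul_smul, smul_smul, mul_comm]
      rw [h2]
      abel
    have h3 : (a : G.N₀) - f • s₀ ∈ M := M.sub_mem a.2 (M.smul_mem f h.mem)
    obtain ⟨α, hα, -⟩ := h.gen _ _ h1 h3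
    rw [Submodule.mem_span_singleton]
    refine ⟨f + algebraMap A R₀ α, ?_⟩
    apply Subtype.ext
    rw [Submodule.coe_smul, add_smul, algebraMap_smul]
    change f • s₀ + α • s₀ = (a : G.N₀)
    rw [← hα]
    abel
  · intro ha
    obtain ⟨f, rfl⟩ := Submodule.mem_span_singleton.mp ha
    rw [psi_apply]
    have h1 : G.r₀ ((f • (⟨s₀, h.mem⟩ : M) : M) : G.N₀) =
        algebraMap R₀ R₀₁ f • G.r₀ s₀ + X • G.r₁ 0 := by
      rw [map_zero, smul_zero, add_zero, algebraMap_smul, ← map_smul]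
      rfl
    rw [h1, psi₀_apply, Submodule.mkQ_apply, Submodule.Quotient.mk_eq_zero]
    exact ⟨(f, 0), by rw [unitCech_apply, map_zero, sub_zero]⟩

/-- **The long exact sequence**: `M ⧸ R₀ s₀ ≃ₗ[A] H¹(O)`. -/
noncomputable def equiv (h : LesData G y X M s₀ s₁) :
    (M ⧸ Submodule.span R₀ {(⟨s₀, h.mem⟩ : M)}) ≃ₗ[A]
      (R₀₁ ⧸ LinearMap.range (unitCech A R₀ R₁ R₀₁)) :=
  have hker : LinearMap.ker h.psi =
      (Submodule.span R₀ {(⟨s₀, h.mem⟩ : M)}).restrictScalars A := by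
    ext a
    rw [LinearMap.mem_ker, h.psi_eq_zero_iff, Submodule.restrictScalars_mem]
  (Submodule.Quotient.restrictScalarsEquiv A
      (Submodule.span R₀ {(⟨s₀, h.mem⟩ : M)})).symm ≪≫ₗ
    Submodule.quotEquivOfEq _ _ hker.symm ≪≫ₗ
    h.psi.quotKerEquivOfSurjective h.psi_surjective

end LesData

end Les

end Fermat.Agent.S25.H611
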