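import Fermat.Agent.S25.H11.ACDefs
import Fermat.Agent.S25.H611.ACLes
import Fermat.Agent.S25.H611.ACHilbCore
import Fermat.Agent.S25.H550.ACInj
import Fermat.Agent.S25.H446.PtIdeal
import Fermat.Agent.S25.H310.DegreeInvariance
import Fermat.Agent.S25.H250.AdapterProj
import Fermat.Agent.S25.H250.DegreeD1

/-!
# S25 / ALGCHARTS, leaf ST3: CORE (helper611)

`stage3_core`: for a gluing datum `G` over `A` with `P2` (a free generator `s` of
`H⁰(G(nE₀ - Σq))` not vanishing on `E₀`, and `H¹ = 0`), the divisor `D' = div s - Σq` is an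
`A`-point of `Hilb^g (Spec B₀)`: there is an ideal `I'` of `A ⊗ B₀` with
`(A ⊗ B₀) ⧸ I'` finite projective of rank `g` over `A` and `R₀ s₀ = (I' · I_q) N₀`.

Route: `I' := (R₀ s₀ : I_q N₀)`; the long exact sequence (`H611.LesData.equiv`) identifies
`I_q N₀ ⧸ R₀ s₀` with `H¹(O_A) = A ⊗ H¹(O_k)`, which is free of rank `g`; rank-one calculus
(`H611.ACHilbCore`) transfers this to `R₀ ⧸ I'`.
-/

set_option autoImplicit false
set_option linter.style.haveILetI false
set_option linter.unusedSectionVars false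

universe u

open scoped TensorProduct

namespace Fermat.Agent.S25.H611

open Fermat.Agent.S25 Fermat.Agent.S25.H11

section SmulTop

variable {R : Type*} [CommRing R] (I : Ideal R) (N : Type*) [AddCommGroup N] [Module R N]

/-- The multiplication map `I ⊗ N → N`. -/
noncomputable def idealTensorToModule : (I ⊗[R] N) →ₗ[R] N :=
  (TensorProduct.lid R N).toLinearMap ∘ₗ (I.subtype.rTensor N)

@[simp]
theorem idealTensorToModule_tmul (i : I) (n : N) :
    idealTensorToModule I N (i ⊗ₜ[R] n) = (i : R) • n := by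
  simp [idealTensorToModule]

theorem range_idealTensorToModule :
    LinearMap.range (idealTensorToModule I N) = I • (⊤ : Submodule R N) := by
  apply le_antisymm
  · rintro _ ⟨t, rfl⟩
    induction t using TensorProduct.induction_on with
    | zero => simp
    | tmul i n =>
      rw [idealTensorToModule_tmul]
      exact Submodule.smul_mem_smul i.2 Submodule.mem_top
    | add a b ha hb =>
      rw [map_add]
      exact Submodule.add_mem _ ha hb
  · rw [Submodule.smul_le]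
    intro r hr n _
    exact ⟨(⟨r, hr⟩ : I) ⊗ₜ[R] n, by simp⟩

/-- For an invertible ideal `I` and an invertible module `N`, `I • N` is invertible. -/
theorem invertible_smul_top [Module.Invertible R I] [Module.Invertible R N] :
    Module.Invertible R (I • (⊤ : Submodule R N) : Submodule R N) := by
  have hinj : Function.Injective (idealTensorToModule I N) := by
    unfold idealTensorToModule
    rw [LinearMap.coe_comp, LinearEquiv.coe_coe, EquivLike.comp_injective]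
    exact Module.Flat.rTensor_preserves_injective_linearMap _ Subtype.val_injective
  exact Module.Invertible.congr
    ((LinearEquiv.ofInjective _ hinj) ≪≫ₗ LinearEquiv.ofEq _ _ (range_idealTensorToModule I N))

end SmulTop

variable {k : Type u} [Field k] [IsAlgClosed k]
  {B₀ B₁ B₀₁ : Type u} [CommRing B₀] [CommRing B₁] [CommRing B₀₁]
  [Algebra k B₀] [Algebra k B₁] [Algebra k B₀₁] [Algebra B₀ B₀₁] [Algebra B₁ B₀₁]
  [IsScalarTower k B₀ B₀₁] [IsScalarTower k B₁ B₀₁]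
  {x : B₀} {y : B₁} {e : B₁ →ₐ[k] k}
  {A : Type u} [CommRing A] [Algebra k A]

/-- `H¹(O_A)` in the form of `H611.ACLes`. -/
abbrev unitH1 (A : Type u) [CommRing A] [Algebra k A] (B₀ B₁ B₀₁ : Type u) [CommRing B₀]
    [CommRing B₁] [CommRing B₀₁] [Algebra k B₀] [Algebra k B₁] [Algebra k B₀₁] [Algebra B₀ B₀₁]
    [Algebra B₁ B₀₁] [IsScalarTower k B₀ B₀₁] [IsScalarTower k B₁ B₀₁] : Type u :=
  (A ⊗[k] B₀₁) ⧸ LinearMap.range (unitCech A (A ⊗[k] B₀) (A ⊗[k] B₁) (A ⊗[k] B₀₁))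

/-- `H¹(O_A) ≃ A ⊗ H¹(O_k)`. -/
noncomputable def unitH1Equiv (A : Type u) [CommRing A] [Algebra k A] :
    (A ⊗[k] (GlueDatum.unit k (k ⊗[k] B₀) (k ⊗[k] B₁) (k ⊗[k] B₀₁)).H1) ≃ₗ[A]
      unitH1 (k := k) A B₀ B₁ B₀₁ :=
  (H310.unitBCMaps (k := k) (A := k) (A' := A) (B₀ := B₀) (B₁ := B₁) (B₀₁ := B₀₁)).H1Equiv

/-- `A ⊗ B₁ → A ⊗ B₀₁` is injective. -/
theorem algebraMap_tensor₁_injective (hC : IsCurveChart k B₀ B₁ B₀₁ x y e) :
    Function.Injective (algebraMap (A ⊗[k] B₁) (A ⊗[k] B₀₁)) :=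
  H250.r1_injective hC (GlueDatum.unit A (A ⊗[k] B₀) (A ⊗[k] B₁) (A ⊗[k] B₀₁))

/-- The hypotheses of the long exact sequence hold for a generator. -/
theorem lesData_of_isGen (hC : IsCurveChart k B₀ B₁ B₀₁ x y e) (n : ℕ) {m : ℕ}
    (q : Fin m → (B₀ →ₐ[k] k)) (G : CurveGD k B₀ B₁ B₀₁ A) (h1 : P1 x n q G)
    {s : G.N₀ × G.N₁} (hs : IsGen x y n q G s) :
    LesData G (yElt k A y) (xElt k B₀₁ A x ^ n) (vanq q G) s.1 s.2 where
  away := by
    haveI := hC.away₁
    exact H250.isLocalization_away_tensor B₁ B₀₁ y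
  unitX := (H550.isUnit_xElt hC).pow n
  inj₁ := algebraMap_tensor₁_injective hC
  sec := mem_sec.mp hs.mem.1
  mem := hs.mem.2
  p0 := fun c => by
    obtain ⟨p, hp⟩ := h1.1 c
    exact ⟨p.1, p.2, by rw [← hp, tcech_apply]⟩
  p1 := fun a => by
    obtain ⟨s', hs', h⟩ := h1.2 a
    exact ⟨s'.1, s'.2, mem_sec.mp hs', h⟩
  gen := fun a b hab ha => by
    obtain ⟨α, hα⟩ := hs.span (a, b) ⟨mem_sec.mpr hab, ha⟩
    exact ⟨α, congrArg Prod.fst hα, congrArg Prod.snd hα⟩
  genY := hs.gen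
  inj := fun ρ hρ => by
    have h := H550.sec_smul_injective₀₁ hC G n s hs.mem.1 hs.gen
    apply h
    simpa using hρ

/-- **ST3, CORE.**  Under `P2`, the divisor `D' = div s - Σq` of the generator `s` is an
`A`-point of `Hilb^g (Spec B₀)`. -/
theorem stage3_core (hC : IsCurveChart k B₀ B₁ B₀₁ x y e) (i : ChartIndex k B₀)
    (hnum : i.Numeric B₀₁ y) (G : CurveGD k B₀ B₁ B₀₁ A) (h2 : P2 x y i.n i.q G) :
    ∃ (s : G.N₀ × G.N₁) (I' : Ideal (A ⊗[k] B₀)), IsGen x y i.n i.q G s ∧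
      H491.IsHilb i.g I' ∧ Submodule.span (A ⊗[k] B₀) {s.1} =
        (I' * ptIdeal i.q A) • (⊤ : Submodule (A ⊗[k] B₀) G.N₀) := by
  obtain ⟨h1, s, hs⟩ := h2
  have hles := lesData_of_isGen hC i.n i.q G h1 hs
  haveI := G.invertible₀
  haveI := H446.ptIdeal_invertible A hC i.q
  haveI hMinv : Module.Invertible (A ⊗[k] B₀) (vanq i.q G) :=
    invertible_smul_top (ptIdeal i.q A) G.N₀
  let s' : vanq i.q G := ⟨s.1, hles.mem⟩
  let eQ : ((vanq i.q G) ⧸ Submodule.span (A ⊗[k] B₀) {s'}) ≃ₗ[A]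
      (A ⊗[k] (GlueDatum.unit k (k ⊗[k] B₀) (k ⊗[k] B₁) (k ⊗[k] B₀₁)).H1) :=
    hles.equiv ≪≫ₗ (unitH1Equiv (k := k) (B₀ := B₀) (B₁ := B₁) (B₀₁ := B₀₁) A).symm
  haveI : Module.Finite k (GlueDatum.unit k (k ⊗[k] B₀) (k ⊗[k] B₁) (k ⊗[k] B₀₁)).H1 :=
    H250.finite_H1 hC _
  haveI : Module.Finite A ((vanq i.q G) ⧸ Submodule.span (A ⊗[k] B₀) {s'}) :=
    Module.Finite.equiv eQ.symm
  haveI : Module.Free A ((vanq i.q G) ⧸ Submodule.span (A ⊗[k] B₀) {s'}) :=
    Module.Free.of_equiv eQ.symm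
  obtain ⟨hfin, hproj⟩ := quotient_colonIdeal_finite_projective A (R := A ⊗[k] B₀) s'
  refine ⟨s, colonIdeal (R := A ⊗[k] B₀) s', hs, ⟨hfin, hproj, fun p => ?_⟩, ?_⟩
  · rw [rankAtStalk_quotient_colonIdeal A s' p]
    haveI : Nontrivial A := p.nontrivial
    rw [Module.rankAtStalk_eq_finrank_of_free, eQ.finrank_eq, Module.finrank_baseChange,
      ← hnum.2]
    rfl
  · have h3 := colonIdeal_smul_top (R := A ⊗[k] B₀) s'
    have h4 := congrArg (Submodule.map (vanq i.q G).subtype) h3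
    rw [Submodule.map_smul'', Submodule.map_top, Submodule.range_subtype, Submodule.map_span,
      Set.image_singleton] at h4
    rw [Submodule.mul_smul]
    exact h4.symm

end Fermat.Agent.S25.H611
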