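import Fermat.Agent.S25.H671.ACStage3Leaf
import Fermat.Agent.S25.H611.ACCore

/-!
# S25 / ALGCHARTS, leaf ST3 (helper611 + helper671): `H11.Leaf.Stage3`, UNCONDITIONAL

`leaf_stage3 : H11.Leaf.Stage3 k B₀ B₁ B₀₁` = `H671.stage3_of_core` (helper671: stage 3 from the
CORE statement, using stability of `P2` under base change) applied to `H611.stage3_core`
(helper611: under `P2` the divisor `D' = div s - Σq` of the generator is a point of `Hilb^g`).
-/

set_option autoImplicit false
set_option linter.unusedSectionVars false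

universe u

open scoped TensorProduct

namespace Fermat.Agent.S25.H611

open Fermat.Agent.S25 Fermat.Agent.S25.H11

variable {k : Type u} [Field k] [IsAlgClosed k]
  {B₀ B₁ B₀₁ : Type u} [CommRing B₀] [CommRing B₁] [CommRing B₀₁]
  [Algebra k B₀] [Algebra k B₁] [Algebra k B₀₁] [Algebra B₀ B₀₁] [Algebra B₁ B₀₁]
  [IsScalarTower k B₀ B₀₁] [IsScalarTower k B₁ B₀₁]

variable (k B₀ B₁ B₀₁) in
/-- The CORE statement of stage 3 in the packaged form `H671.Stage3Core`. -/
theorem stage3Core_holds : H671.Stage3Core k B₀ B₁ B₀₁ :=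
  fun _ _ _ hC i hnum _ _ _ G _ _ h2 => stage3_core hC i hnum G h2

variable (k B₀ B₁ B₀₁) in
/-- **Leaf ST3** of ALGCHARTS, unconditional. -/
theorem leaf_stage3 : H11.Leaf.Stage3 k B₀ B₁ B₀₁ :=
  H671.stage3_of_core (stage3Core_holds k B₀ B₁ B₀₁)

end Fermat.Agent.S25.H611
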