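import Mathlib
import Fermat.Agent.S25.H611.InvMap

/-!
# Base change of an ideal with flat quotient (helper611, S25/ALGCHARTS support)

In a pushout square `B = S ⊗[R] A` of commutative rings, an ideal `I` of `A` whose quotient
`A ⧸ I` is flat over `R` satisfies `B ⊗[A] I ≃ I · B`: the inclusion `I → I.map (algebraMap A B)`
is a base change map.
-/

namespace Fermat.Agent.S25.H611

open scoped TensorProduct

section IdealBC

variable (A B : Type*) [CommRing A] [CommRing B] [Algebra A B]

/-- In a pushout square `B = S ⊗[R] A`, for an ideal `I` of `A` with `A ⧸ I` flat over `R`,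
the natural map `B ⊗[A] I → B` is injective. -/
theorem baseChangeToIdeal_injective_of_flat (R S : Type*) [CommRing R] [CommRing S]
    [Algebra R S] [Algebra R A] [Algebra R B] [Algebra S B]
    [IsScalarTower R A B] [IsScalarTower R S B] [Algebra.IsPushout R S A B]
    (I : Ideal A) [Module.Flat R (A ⧸ I)] :
    Function.Injective (baseChangeToIdeal (T := B) I) := by
  let e₁ := (Algebra.IsPushout.cancelBaseChange R S A B I).symm
  have hinj : Function.Injective ((I.subtype.restrictScalars R).lTensor S) :=
    LinearMap.lTensor_injective_of_exact_of_flat (Ideal.Quotient.mkₐ R I).toLinearMap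
      Ideal.Quotient.mk_surjective (I.subtype.restrictScalars R) Subtype.val_injective
      (by
        intro a
        constructor
        · intro ha
          exact ⟨⟨a, Ideal.Quotient.eq_zero_iff_mem.mp ha⟩, rfl⟩
        · rintro ⟨j, rfl⟩
          exact Ideal.Quotient.eq_zero_iff_mem.mpr j.2) S
  have key : ∀ x, baseChangeToIdeal (T := B) I (e₁ x) =
      Algebra.IsPushout.equiv R S A B ((I.subtype.restrictScalars R).lTensor S x) := by
    intro x
    induction x using TensorProduct.induction_on with
    | zero => rw [LinearEquiv.map_zero, LinearMap.map_zero, LinearMap.map_zero, map_zero]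
    | tmul s j =>
      simp only [e₁, Algebra.IsPushout.cancelBaseChange_symm_tmul, baseChangeToIdeal_tmul,
        LinearMap.lTensor_tmul, Algebra.IsPushout.equiv_tmul]
      rfl
    | add x y hx hy =>
      rw [LinearEquiv.map_add, LinearMap.map_add, hx, hy, LinearMap.map_add, map_add]
  intro u v huv
  obtain ⟨x, rfl⟩ := e₁.surjective u
  obtain ⟨y, rfl⟩ := e₁.surjective v
  rw [key, key] at huv
  rw [hinj ((Algebra.IsPushout.equiv R S A B).injective huv)]

/-- The inclusion of an ideal into its extension, as a linear map. -/
def idealMapLinear (I : Ideal A) : I →ₗ[A] (I.map (algebraMap A B)) where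
  toFun j := ⟨algebraMap A B j, Ideal.mem_map_of_mem _ j.2⟩
  map_add' x y := by
    apply Subtype.ext
    simp
  map_smul' a x := by
    apply Subtype.ext
    simp [Algebra.smul_def]

@[simp]
theorem idealMapLinear_apply_coe (I : Ideal A) (j : I) :
    ((idealMapLinear A B I j : I.map (algebraMap A B)) : B) = algebraMap A B j := rfl

/-- `B ⊗[A] I ≃ I · B` in a pushout square, when `A ⧸ I` is flat over the base. -/
noncomputable def idealBaseChangeEquiv (R S : Type*) [CommRing R] [CommRing S]
    [Algebra R S] [Algebra R A] [Algebra R B] [Algebra S B]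
    [IsScalarTower R A B] [IsScalarTower R S B] [Algebra.IsPushout R S A B]
    (I : Ideal A) [Module.Flat R (A ⧸ I)] :
    (B ⊗[A] I) ≃ₗ[B] (I.map (algebraMap A B)) :=
  (LinearEquiv.ofInjective _ (baseChangeToIdeal_injective_of_flat A B R S I)) ≪≫ₗ
    LinearEquiv.ofEq _ _ (range_baseChangeToIdeal I)

theorem idealBaseChangeEquiv_tmul_coe (R S : Type*) [CommRing R] [CommRing S]
    [Algebra R S] [Algebra R A] [Algebra R B] [Algebra S B]
    [IsScalarTower R A B] [IsScalarTower R S B] [Algebra.IsPushout R S A B]
    (I : Ideal A) [Module.Flat R (A ⧸ I)] (b : B) (j : I) :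
    ((idealBaseChangeEquiv A B R S I (b ⊗ₜ[A] j) : I.map (algebraMap A B)) : B) =
      b * algebraMap A B j := by
  simp [idealBaseChangeEquiv]

/-- **Base change of an ideal with flat quotient.** -/
theorem isBaseChange_idealMapLinear (R S : Type*) [CommRing R] [CommRing S]
    [Algebra R S] [Algebra R A] [Algebra R B] [Algebra S B]
    [IsScalarTower R A B] [IsScalarTower R S B] [Algebra.IsPushout R S A B]
    (I : Ideal A) [Module.Flat R (A ⧸ I)] :
    IsBaseChange B (idealMapLinear A B I) := by
  refine IsBaseChange.of_equiv (idealBaseChangeEquiv A B R S I) (fun j => ?_)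
  apply Subtype.ext
  rw [idealBaseChangeEquiv_tmul_coe A B R S, one_mul]
  rfl

end IdealBC

end Fermat.Agent.S25.H611
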