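import Fermat.Agent.S25.DefsAlg
import Fermat.Agent.S25.H611.IdealBC

/-!
# Base change of an ideal of `A ⊗[k] B` with `A`-flat quotient (helper611, S25/ALGCHARTS support)

For `φ : A →ₐ[k] A'` and an ideal `I` of `A ⊗[k] B` with `(A ⊗[k] B) ⧸ I` flat over `A`, the
`tensorMapLeft k φ B`-semilinear map `I → I · (A' ⊗[k] B)` is a base change map in the sense of
the frozen `IsSemilinearBaseChange`.
-/

set_option autoImplicit false

universe u

open scoped TensorProduct

namespace Fermat.Agent.S25.H611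

open Fermat.Agent.S25

/-- The `ρ`-semilinear map `I → I.map ρ`. -/
def idealMapSL {R R' : Type*} [CommRing R] [CommRing R'] (ρ : R →+* R') (I : Ideal R) :
    I →ₛₗ[ρ] (I.map ρ) where
  toFun j := ⟨ρ j, Ideal.mem_map_of_mem ρ j.2⟩
  map_add' x y := by
    apply Subtype.ext
    simp
  map_smul' a x := by
    apply Subtype.ext
    simp

@[simp]
theorem idealMapSL_apply_coe {R R' : Type*} [CommRing R] [CommRing R'] (ρ : R →+* R')
    (I : Ideal R) (j : I) : ((idealMapSL ρ I j : I.map ρ) : R') = ρ j := rfl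

section Pushout

variable {k : Type u} [Field k] {A A' B : Type u} [CommRing A] [Algebra k A] [CommRing A']
  [Algebra k A'] [CommRing B] [Algebra k B]

/-- `A' ⊗[k] B` is the pushout of `A ⊗[k] B` along `φ : A → A'`. -/
theorem isPushout_tensorMapLeft (φ : A →ₐ[k] A') :
    letI : Algebra A A' := φ.toRingHom.toAlgebra
    letI : Algebra (A ⊗[k] B) (A' ⊗[k] B) := (tensorMapLeft k φ B).toAlgebra
    haveI : IsScalarTower k A A' := IsScalarTower.of_algebraMap_eq' φ.comp_algebraMap.symm
    ∃ (_ : IsScalarTower A (A ⊗[k] B) (A' ⊗[k] B)) (_ : IsScalarTower A A' (A' ⊗[k] B)),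
      Algebra.IsPushout A A' (A ⊗[k] B) (A' ⊗[k] B) := by
  letI : Algebra A A' := φ.toRingHom.toAlgebra
  letI : Algebra (A ⊗[k] B) (A' ⊗[k] B) := (tensorMapLeft k φ B).toAlgebra
  haveI : IsScalarTower k A A' := IsScalarTower.of_algebraMap_eq' φ.comp_algebraMap.symm
  have hmap : ∀ x : A ⊗[k] B, algebraMap (A ⊗[k] B) (A' ⊗[k] B) x = tensorMapLeft k φ B x :=
    fun _ => rfl
  have hφ : ∀ a : A, algebraMap A A' a = φ a := fun _ => rfl
  haveI t1 : IsScalarTower A (A ⊗[k] B) (A' ⊗[k] B) := by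
    refine IsScalarTower.of_algebraMap_eq' ?_
    ext a
    rw [RingHom.comp_apply, hmap]
    simp [tensorMapLeft, Algebra.TensorProduct.algebraMap_apply, hφ]
  haveI t2 : IsScalarTower A A' (A' ⊗[k] B) := inferInstance
  refine ⟨t1, t2, ⟨?_⟩⟩
  refine IsBaseChange.of_equiv (TensorProduct.AlgebraTensorModule.cancelBaseChange k A A' A' B)
    (fun x => ?_)
  change _ = algebraMap (A ⊗[k] B) (A' ⊗[k] B) x
  rw [hmap]
  induction x using TensorProduct.induction_on with
  | zero => simp
  | tmul a b =>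
    simp [tensorMapLeft, TensorProduct.AlgebraTensorModule.cancelBaseChange_tmul, hφ,
      Algebra.smul_def]
  | add x y hx hy => simp only [TensorProduct.tmul_add, map_add, hx, hy]

/-- **Base change of an ideal with flat quotient**, in the frozen language of `DefsAlg`. -/
theorem isSemilinearBaseChange_idealMapSL (φ : A →ₐ[k] A') (I : Ideal (A ⊗[k] B))
    [Module.Flat A ((A ⊗[k] B) ⧸ I)] :
    IsSemilinearBaseChange (tensorMapLeft k φ B) (idealMapSL (tensorMapLeft k φ B) I) := by
  letI : Algebra A A' := φ.toRingHom.toAlgebra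
  letI : Algebra (A ⊗[k] B) (A' ⊗[k] B) := (tensorMapLeft k φ B).toAlgebra
  haveI : IsScalarTower k A A' := IsScalarTower.of_algebraMap_eq' φ.comp_algebraMap.symm
  obtain ⟨t1, t2, hpo⟩ := isPushout_tensorMapLeft (B := B) φ
  unfold IsSemilinearBaseChange
  refine IsBaseChange.of_equiv (idealBaseChangeEquiv (A ⊗[k] B) (A' ⊗[k] B) A A' I) (fun j => ?_)
  apply Subtype.ext
  rw [idealBaseChangeEquiv_tmul_coe (A ⊗[k] B) (A' ⊗[k] B) A A', one_mul]
  rfl

end Pushout

end Fermat.Agent.S25.H611
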